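import Fermat.Agent.S52.If
import Fermat.Agent.Cheb.Interface
import Fermat.Agent.S41.Eis.RedB

/-!
# [S52/CHEBREAL]  "a real place is a Frobenius"    (~450 lines; `Cheb.exists_frobenius_eq`, `complexConjugation`, `Lib/Frobenius.lean`, `S41/Eis/RedB.lean` for the residue field API)

`Qbar = AlgebraicClosure ℚ`, `ι = complexEmbedding`, `c = complexConjugation` (`complexEmbedding_complexConjugation : ι (c x) = conj (ι x)`).
1. (ALG) a real (complex) number algebraic over `ℚ` is `ι θ` for some `θ : Qbar` (`ι.range` is algebraically closed in `ℂ`: `τ` is a root of `h.map`, `h ≠ 0` because `h' (τ) ≠ 0`; split `h` over `Qbar`: `IsAlgClosed.splits`, `ι` maps the roots onto the roots in `ℂ`; or `IsAlgClosed.lift`/`Algebra.IsAlgebraic` + `AlgHom.fieldRange`, `IntermediateField.algebraicClosure`).  `ι` injective, `conj (τ:ℂ) = τ` ⟹ `c θ = θ`.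
   Elements: `θ ↦ τ`; `s ↦ √(g(τ))` (real, algebraic: root of `X^2 - g(θ)`: take a root `s'` of `X^2 - g(θ)` in `Qbar`; `ι s' = ± √(g τ)` is real, so `c s' = s'`); `s2 ↦ √2`, `s3 ↦ √3` (same lemma with `g = 2, 3`); `i` with `i^2 = -1`: `ι i = ± I`, so `c i = - i`.
2. (BAD) for `β : Qbar`, `β ≠ 0`: a finite set `S_β` of primes such that for `r ∉ S_β` and `A` over `r`: `β ∈ A` and `β⁻¹ ∈ A` (`Frob.exists_denominator`-style: `n β` integral for some `n ≠ 0`; `Frob.mem_of_isIntegral`, `Frob.int_not_mem_nonunits`).  Apply to `θ` (if `θ ≠ 0`), `s`, `h'(θ)`, `2`.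
3. `r : GQ →* Equiv.Perm`-free version: use `r := AlgEquiv.restrictNormalHom L`, `L = normalClosure of ℚ(θ, s, s2, s3, i)` (see the proof of `Cheb.exists_frobenius_eq` for `GaloisFactorsThroughFiniteLevel (restrictNormalHom L)`), `g := c`: get `p ∉ S ∪ S_bad`, `A`, `σ` Frobenius at `A` with `σ = c` on `L`.
4. residues: `x ∈ A`, `σ x = x` ⟹ `res x ^ p = res x` (`IsFrobeniusAt.smul_residue_eq`; `S41.Eis.redb_residue_map`) ⟹ `res x` is in the prime field: `∃ n : ℤ, res x = n` (the `p` elements `0..p-1` are `p` distinct roots of `X^p - X`; `S41.Eis.redb_charP`; or `ZMod p →+* κ` + `FiniteField.roots_X_pow_card_sub_X`-style count).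
   `n ↔ θ`: `res (h(θ)) = h(n)` in `κ` so `p ∣ h(n)` (`(m : κ) = 0 ↔ p ∣ m`, `CharP`); `h'(θ)` unit ⟹ `p ∤ h'(n)`; `g(n) = res(s)^2`, `res s = m ∈ 𝔽_p`, `≠ 0`: `g(n) ≡ m^2`, `p ∤ g(n)`.
   `2 = res(s2)^2`, `3 = res(s3)^2` squares in `ZMod p`.  `-1`: if `-1 = a^2` in `ZMod p` then `res i = ± a` is in the prime field, `res i ^ p = res i`, but `res (σ i) = - res i`: `2 res i = 0`, `res i = 0`, `-1 = 0`. Contradiction (`p ≠ 2`: put `2 ∈ S_bad`).
-/

set_option autoImplicit false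

open Polynomial

namespace Fermat.Agent.S52.CR

local notation "Qbar" => AlgebraicClosure ℚ
local notation "GQ" => (AlgebraicClosure ℚ ≃ₐ[ℚ] AlgebraicClosure ℚ)

theorem aeval_hom {R R' : Type*} [CommRing R] [CommRing R'] (f : R →+* R') (x : R) (P : ℤ[X]) :
    aeval (f x) P = f (aeval x P) := aeval_algHom_apply f.toIntAlgHom x P

theorem aeval_intCast {R : Type*} [CommRing R] (n : ℤ) (P : ℤ[X]) :
    aeval (n : R) P = ((P.eval n : ℤ) : R) := by
  have := aeval_hom (Int.castRingHom R) n P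
  simpa using this

/-- Chebotarev for a finite set of algebraic numbers -/
theorem cheb_finset (T : Finset Qbar) (S : Finset ℕ) (g : GQ) :
    ∃ (p : ℕ) (A : ValuationSubring Qbar) (σ : GQ), p.Prime ∧ p ∉ S ∧ A.LiesOverPrime p ∧
      A.IsFrobeniusAt σ p ∧ ∀ x ∈ T, σ x = g x := by
  have hn1 : Normal ℚ Qbar := (Frob.isGaloisQbar).to_normal
  have hfd : FiniteDimensional ℚ (IntermediateField.adjoin ℚ (T : Set Qbar)) :=
    IntermediateField.finiteDimensional_adjoin
      (fun x _ => (Frob.isAlgebraicQbar.isAlgebraic x).isIntegral)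
  set L₀ := IntermediateField.adjoin ℚ (T : Set Qbar) with hL₀
  have hn2 : Normal ℚ (IntermediateField.normalClosure ℚ L₀ Qbar) := normalClosure.normal ℚ L₀ Qbar
  set L := IntermediateField.normalClosure ℚ L₀ Qbar with hL
  have hfl : GaloisFactorsThroughFiniteLevel (AlgEquiv.restrictNormalHom (F := ℚ) (K₁ := Qbar) L) := by
    refine ⟨L, inferInstance, fun σ hσ => ?_⟩
    ext x
    have h1 := AlgEquiv.restrictNormal_commutes σ L x
    have h2 : algebraMap L Qbar ((AlgEquiv.restrictNormalHom L σ) x) = algebraMap L Qbar x := by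
      rw [show (AlgEquiv.restrictNormalHom L σ) x = σ.restrictNormal L x from rfl, h1]
      exact hσ x x.2
    exact h2
  obtain ⟨p, A, σ, hp, hpS, hA, hσ, h1⟩ := Cheb.exists_frobenius_eq _ hfl S g
  refine ⟨p, A, σ, hp, hpS, hA, hσ, fun x hx => ?_⟩
  have hxL : x ∈ L := L₀.le_normalClosure (IntermediateField.subset_adjoin ℚ _ hx)
  have h2 := AlgEquiv.restrictNormal_commutes g L ⟨x, hxL⟩
  have h3 := AlgEquiv.restrictNormal_commutes σ L ⟨x, hxL⟩
  have h4 : σ.restrictNormal L = g.restrictNormal L := h1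
  rw [h4, h2] at h3
  exact h3.symm

/-- algebraic complex numbers come from `Qbar` -/
theorem exists_lift (P : ℤ[X]) (hP : P ≠ 0) (z : ℂ) (hz : aeval z P = 0) :
    ∃ θ : Qbar, complexEmbedding θ = z := by
  have h1 : (P.map (algebraMap ℤ Qbar)).Splits := IsAlgClosed.splits _
  have h2 : P.map (algebraMap ℤ Qbar) ≠ 0 :=
    (Polynomial.map_ne_zero_iff (FaithfulSMul.algebraMap_injective ℤ Qbar)).mpr hP
  have h3 : ((P.map (algebraMap ℤ Qbar)).map (complexEmbedding : Qbar →+* ℂ)).IsRoot z := by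
    rw [Polynomial.map_map, IsRoot.def, eval_map, ← hz, aeval_def]
    congr 1
    exact Subsingleton.elim _ _
  obtain ⟨θ, hθ⟩ := h1.mem_range_of_isRoot h2 h3
  exact ⟨θ, hθ⟩

theorem conj_fixed {θ : Qbar} (h : starRingEnd ℂ (complexEmbedding θ) = complexEmbedding θ) :
    complexConjugation θ = θ := by
  apply (complexEmbedding : Qbar →+* ℂ).injective
  exact (complexEmbedding_complexConjugation θ).trans h

theorem exists_sqrt_fixed (β : Qbar) (b : ℝ) (hb : 0 ≤ b) (h : complexEmbedding β = (b : ℂ)) :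
    ∃ s : Qbar, s ^ 2 = β ∧ complexConjugation s = s := by
  obtain ⟨s, hs⟩ := IsAlgClosed.exists_pow_nat_eq β (n := 2) (by norm_num)
  refine ⟨s, hs, conj_fixed ?_⟩
  have h1 : (complexEmbedding s) ^ 2 = ((Real.sqrt b : ℝ) : ℂ) ^ 2 := by
    rw [← map_pow, hs, h, ← Complex.ofReal_pow, Real.sq_sqrt hb]
  rcases sq_eq_sq_iff_eq_or_eq_neg.mp h1 with h2 | h2
  · rw [h2, Complex.conj_ofReal]
  · rw [h2, map_neg, Complex.conj_ofReal]

theorem exists_I : ∃ i : Qbar, i ^ 2 = -1 ∧ complexConjugation i = - i := by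
  obtain ⟨s, hs⟩ := IsAlgClosed.exists_pow_nat_eq (-1 : Qbar) (n := 2) (by norm_num)
  refine ⟨s, hs, ?_⟩
  apply (complexEmbedding : Qbar →+* ℂ).injective
  have h0 : (complexEmbedding : Qbar →+* ℂ) (complexConjugation s)
      = starRingEnd ℂ (complexEmbedding s) := complexEmbedding_complexConjugation s
  rw [h0, map_neg]
  have h1 : (complexEmbedding s) ^ 2 = Complex.I ^ 2 := by
    rw [← map_pow, hs, Complex.I_sq, map_neg, map_one]
  have h3 : (complexEmbedding : Qbar →+* ℂ) s = complexEmbedding s := rfl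
  rw [h3]
  rcases sq_eq_sq_iff_eq_or_eq_neg.mp h1 with h2 | h2
  · rw [h2, Complex.conj_I]
  · rw [h2, map_neg, Complex.conj_I]


/-- denominators -/
theorem exists_den (x : Qbar) : ∃ N : ℤ, N ≠ 0 ∧ ∀ (p : ℕ) (A : ValuationSubring Qbar), p.Prime →
    A.LiesOverPrime p → ¬ (p : ℤ) ∣ N → x ∈ A := by
  have halg : IsAlgebraic ℤ x :=
    (IsFractionRing.isAlgebraic_iff ℤ ℚ Qbar).mpr (Frob.isAlgebraicQbar.isAlgebraic x)
  obtain ⟨N, hN, hint⟩ := halg.exists_integral_multiple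
  refine ⟨N, hN, fun p A hp hA hd => ?_⟩
  have h1 : N • x ∈ A := Frob.mem_of_isIntegral A hint
  have h2 : (N : Qbar) ∉ A.nonunits := Frob.int_not_mem_nonunits A hp hA hd
  have h3 : (N : Qbar) ∈ A := Frob.mem_of_isIntegral A
    (by simpa using (isIntegral_algebraMap (R := ℤ) (A := Qbar) (x := N)))
  rw [ValuationSubring.mem_nonunits_iff, not_lt] at h2
  rw [← ValuationSubring.valuation_le_one_iff] at h1 h3 ⊢
  have h4 : A.valuation (N : Qbar) = 1 := le_antisymm h3 h2
  rw [zsmul_eq_mul, map_mul, h4, one_mul] at h1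
  exact h1

theorem exists_den_finset (T : Finset Qbar) : ∃ N : ℤ, N ≠ 0 ∧ ∀ (p : ℕ)
    (A : ValuationSubring Qbar), p.Prime → A.LiesOverPrime p → ¬ (p : ℤ) ∣ N → ∀ x ∈ T, x ∈ A := by
  classical
  induction T using Finset.induction_on with
  | empty => exact ⟨1, one_ne_zero, by simp⟩
  | insert a T ha ih =>
    obtain ⟨N, hN, h⟩ := ih
    obtain ⟨M, hM, h'⟩ := exists_den a
    refine ⟨M * N, mul_ne_zero hM hN, fun p A hp hA hd x hx => ?_⟩
    rcases Finset.mem_insert.mp hx with rfl | hx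
    · exact h' p A hp hA (fun hh => hd (hh.mul_right _))
    · exact h p A hp hA (fun hh => hd (hh.mul_left _)) x hx

/-- a residue fixed by Frobenius is in the prime field -/
theorem res_int {A : ValuationSubring Qbar} {σ : GQ} {p : ℕ} (hp : p.Prime)
    (hA : A.LiesOverPrime p) (hσ : A.IsFrobeniusAt σ p) (x : A) (hx : σ (x : Qbar) = x) :
    ∃ n : ℤ, IsLocalRing.residue A x = n := by
  haveI : Fact p.Prime := ⟨hp⟩
  haveI := S41.Eis.redb_charP A hp hA
  have h1 := S41.Eis.redb_residue_map hσ x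
  have h2 : (⟨σ (x : Qbar), S41.Eis.redb_map_mem hσ x.2⟩ : A) = x := Subtype.ext hx
  rw [h2] at h1
  have h3 := (Subfield.mem_bot_iff_pow_eq_self (IsLocalRing.ResidueField A) p).mpr h1.symm
  obtain ⟨n, hn⟩ := (mem_bot_iff_intCast p (IsLocalRing.ResidueField A)).mp h3
  exact ⟨n, hn.symm⟩


theorem isSquare_of_res {A : ValuationSubring Qbar} {σ : GQ} {p : ℕ} (hp : p.Prime)
    (hA : A.LiesOverPrime p) (hσ : A.IsFrobeniusAt σ p) (x : A) (hx : σ (x : Qbar) = x) (a : ℤ)
    (h : IsLocalRing.residue A x ^ 2 = (a : IsLocalRing.ResidueField A)) :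
    IsSquare ((a : ℤ) : ZMod p) := by
  haveI := S41.Eis.redb_charP A hp hA
  obtain ⟨m, hm⟩ := res_int hp hA hσ x hx
  rw [hm] at h
  have h1 : ((m ^ 2 - a : ℤ) : IsLocalRing.ResidueField A) = 0 := by
    push_cast; rw [h, sub_self]
  rw [CharP.intCast_eq_zero_iff _ p] at h1
  refine ⟨(m : ZMod p), ?_⟩
  have := (ZMod.intCast_eq_intCast_iff_dvd_sub a (m ^ 2) p).mpr h1
  rw [this]; push_cast; ring

theorem neg_one_not_sq {A : ValuationSubring Qbar} {σ : GQ} {p : ℕ} (hp : p.Prime)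
    (hA : A.LiesOverPrime p) (hσ : A.IsFrobeniusAt σ p) (hp2 : p ≠ 2) (i : A)
    (hi : (i : Qbar) ^ 2 = -1) (hσi : σ (i : Qbar) = - i) : ¬ IsSquare (-1 : ZMod p) := by
  haveI : Fact p.Prime := ⟨hp⟩
  haveI := S41.Eis.redb_charP A hp hA
  rintro ⟨a, ha⟩
  obtain ⟨m, rfl⟩ := ZMod.intCast_surjective a
  have h1 : (p : ℤ) ∣ m ^ 2 + 1 := by
    rw [← ZMod.intCast_zmod_eq_zero_iff_dvd]
    push_cast
    rw [sq, ← ha]; ring
  have h2 : ((m ^ 2 + 1 : ℤ) : IsLocalRing.ResidueField A) = 0 :=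
    (CharP.intCast_eq_zero_iff _ p _).mpr h1
  have hiA : i ^ 2 = -1 := Subtype.ext (by push_cast; exact hi)
  have h3 : IsLocalRing.residue A i ^ 2 = -1 := by
    rw [← map_pow, hiA, map_neg, map_one]
  have h4 : IsLocalRing.residue A i ^ 2 = ((m : ℤ) : IsLocalRing.ResidueField A) ^ 2 := by
    push_cast at h2
    rw [h3]; linear_combination - h2
  have h5 : ∃ k : ℤ, (k : IsLocalRing.ResidueField A) = IsLocalRing.residue A i := by
    rcases sq_eq_sq_iff_eq_or_eq_neg.mp h4 with h | h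
    · exact ⟨m, h.symm⟩
    · exact ⟨-m, by rw [h]; push_cast; rfl⟩
  have h6 : IsLocalRing.residue A i ^ p = IsLocalRing.residue A i :=
    (Subfield.mem_bot_iff_pow_eq_self (IsLocalRing.ResidueField A) p).mp
      ((mem_bot_iff_intCast p (IsLocalRing.ResidueField A)).mpr h5)
  have h7 := S41.Eis.redb_residue_map hσ i
  have h8 : (⟨σ (i : Qbar), S41.Eis.redb_map_mem hσ i.2⟩ : A) = - i := Subtype.ext (by
    push_cast; exact hσi)
  rw [h8, map_neg, h6] at h7
  have h9 : ((2 : ℤ) : IsLocalRing.ResidueField A) ≠ 0 := by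
    rw [Ne, CharP.intCast_eq_zero_iff _ p]
    intro h
    have : p ∣ 2 := by exact_mod_cast h
    exact hp2 ((Nat.prime_dvd_prime_iff_eq hp Nat.prime_two).mp this)
  have h10 : ((2 : ℤ) : IsLocalRing.ResidueField A) * IsLocalRing.residue A i = 0 := by
    push_cast; linear_combination - h7
  have h11 : IsLocalRing.residue A i = 0 := (mul_eq_zero.mp h10).resolve_left h9
  rw [h11] at h3
  norm_num at h3

end Fermat.Agent.S52.CR

namespace Fermat.Agent.S52

local notation "Qbar" => AlgebraicClosure ℚ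

theorem exists_prime_real (h g : ℤ[X]) (τ : ℝ) (h0 : aeval τ h = 0) (h1 : aeval τ (derivative h) ≠ 0)
    (hg : 0 < aeval τ g) (S : Finset ℕ) :
    ∃ (r : ℕ) (n : ℤ), r.Prime ∧ r ∉ S ∧ GoodQR r ∧ (r : ℤ) ∣ h.eval n ∧
      ¬ (r : ℤ) ∣ (derivative h).eval n ∧ ¬ (r : ℤ) ∣ g.eval n ∧
      IsSquare ((g.eval n : ℤ) : ZMod r) := by
  classical
  have hh : h ≠ 0 := by rintro rfl; simp at h1
  have hz : aeval (τ : ℂ) h = 0 := by
    have := CR.aeval_hom (Complex.ofRealHom) τ h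
    rw [h0, map_zero] at this; exact this
  obtain ⟨θ, hθ⟩ := CR.exists_lift h hh (τ : ℂ) hz
  have hinj : Function.Injective (complexEmbedding : Qbar →+* ℂ) := RingHom.injective _
  have hι : ∀ P : ℤ[X], complexEmbedding (aeval θ P) = ((aeval τ P : ℝ) : ℂ) := by
    intro P
    have e1 := CR.aeval_hom (complexEmbedding : Qbar →+* ℂ) θ P
    have e2 := CR.aeval_hom (Complex.ofRealHom) τ P
    have e3 : (complexEmbedding : Qbar →+* ℂ) θ = Complex.ofRealHom τ := hθ
    rw [e3, e2] at e1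
    exact e1.symm
  have hcθ : complexConjugation θ = θ := CR.conj_fixed (by rw [hθ, Complex.conj_ofReal])
  have hθ0 : aeval θ h = 0 := by
    apply hinj
    have := hι h
    rw [h0] at this
    rw [map_zero]; simpa using this
  have hd0 : aeval θ (derivative h) ≠ 0 := by
    intro hd
    have := hι (derivative h)
    rw [hd, map_zero] at this
    exact h1 (by exact_mod_cast this.symm)
  obtain ⟨s, hs, hcs⟩ := CR.exists_sqrt_fixed (aeval θ g) (aeval τ g) hg.le (hι g)
  have hs0 : s ≠ 0 := by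
    rintro rfl
    have := hι g
    rw [← hs, zero_pow two_ne_zero, map_zero] at this
    exact hg.ne (by exact_mod_cast this)
  obtain ⟨s2, hs2, hcs2⟩ := CR.exists_sqrt_fixed 2 2 (by norm_num)
    (by rw [map_ofNat]; norm_num)
  obtain ⟨s3, hs3, hcs3⟩ := CR.exists_sqrt_fixed 3 3 (by norm_num)
    (by rw [map_ofNat]; norm_num)
  obtain ⟨i, hi, hci⟩ := CR.exists_I
  obtain ⟨N, hN, hden⟩ := CR.exists_den_finset {θ, s, s⁻¹, (aeval θ (derivative h))⁻¹, s2, s3, i}
  obtain ⟨p, A, σ, hp, hpS, hA, hσ, hσc⟩ := CR.cheb_finset {θ, s, s2, s3, i}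
    (S ∪ N.natAbs.primeFactors ∪ {2}) complexConjugation
  simp only [Finset.mem_union, Finset.mem_singleton, not_or] at hpS
  obtain ⟨⟨hpS', hpN'⟩, hp2⟩ := hpS
  have hpN : ¬ (p : ℤ) ∣ N := by
    intro hd
    apply hpN'
    rw [Nat.mem_primeFactors]
    exact ⟨hp, Int.natCast_dvd.mp hd, by simpa using hN⟩
  have hmem := hden p A hp hA hpN
  haveI : Fact p.Prime := ⟨hp⟩
  haveI := S41.Eis.redb_charP A hp hA
  obtain ⟨n, hn⟩ := CR.res_int hp hA hσ ⟨θ, hmem θ (by simp)⟩
    (by rw [hσc θ (by simp)]; exact hcθ)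
  have hres : ∀ P : ℤ[X], IsLocalRing.residue A (aeval (⟨θ, hmem θ (by simp)⟩ : A) P)
      = ((P.eval n : ℤ) : IsLocalRing.ResidueField A) := by
    intro P; rw [← CR.aeval_hom, hn, CR.aeval_intCast]
  have hcoe : ∀ P : ℤ[X], ((aeval (⟨θ, hmem θ (by simp)⟩ : A) P : A) : Qbar) = aeval θ P :=
    fun P => (CR.aeval_hom A.subtype ⟨θ, hmem θ (by simp)⟩ P).symm
  have key : ∀ m : ℤ, ((m : ℤ) : IsLocalRing.ResidueField A) = 0 ↔ (p : ℤ) ∣ m :=
    fun m => CharP.intCast_eq_zero_iff _ p m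
  have hsres : IsLocalRing.residue A ⟨s, hmem s (by simp)⟩ ^ 2
      = ((g.eval n : ℤ) : IsLocalRing.ResidueField A) := by
    rw [← hres, ← map_pow]
    congr 1
    apply Subtype.ext
    rw [hcoe]
    push_cast
    exact hs
  refine ⟨p, n, hp, hpS', ⟨?_, ?_, ?_⟩, ?_, ?_, ?_, ?_⟩
  · exact CR.neg_one_not_sq hp hA hσ hp2 ⟨i, hmem i (by simp)⟩ hi
      (by rw [hσc i (by simp)]; exact hci)
  · have := CR.isSquare_of_res hp hA hσ ⟨s2, hmem s2 (by simp)⟩
      (by rw [hσc s2 (by simp)]; exact hcs2) 2 (by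
        rw [← map_pow]
        have : (⟨s2, hmem s2 (by simp)⟩ : A) ^ 2 = 2 := Subtype.ext (by push_cast; exact hs2)
        rw [this, map_ofNat]; norm_num)
    simpa using this
  · have := CR.isSquare_of_res hp hA hσ ⟨s3, hmem s3 (by simp)⟩
      (by rw [hσc s3 (by simp)]; exact hcs3) 3 (by
        rw [← map_pow]
        have : (⟨s3, hmem s3 (by simp)⟩ : A) ^ 2 = 3 := Subtype.ext (by push_cast; exact hs3)
        rw [this, map_ofNat]; norm_num)
    simpa using this
  · rw [← key, ← hres]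
    have : aeval (⟨θ, hmem θ (by simp)⟩ : A) h = 0 := Subtype.ext (by rw [hcoe, hθ0]; rfl)
    rw [this, map_zero]
  · rw [← key, ← hres]
    intro hz
    have h2 : aeval (⟨θ, hmem θ (by simp)⟩ : A) (derivative h)
        * ⟨(aeval θ (derivative h))⁻¹, hmem _ (by simp)⟩ = 1 := Subtype.ext (by
      push_cast
      rw [hcoe]
      exact mul_inv_cancel₀ hd0)
    have h3 := congrArg (IsLocalRing.residue A) h2
    rw [map_mul, hz, zero_mul, map_one] at h3
    exact zero_ne_one h3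
  · rw [← key, ← hsres]
    intro hz
    have hz' := pow_eq_zero_iff (two_ne_zero) |>.mp hz
    have h2 : (⟨s, hmem s (by simp)⟩ : A) * ⟨s⁻¹, hmem _ (by simp)⟩ = 1 := Subtype.ext (by
      push_cast
      exact mul_inv_cancel₀ hs0)
    have h3 := congrArg (IsLocalRing.residue A) h2
    rw [map_mul, hz', zero_mul, map_one] at h3
    exact zero_ne_one h3
  · exact CR.isSquare_of_res hp hA hσ ⟨s, hmem s (by simp)⟩
      (by rw [hσc s (by simp)]; exact hcs) _ hsres

end Fermat.Agent.S52
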