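import Fermat.Agent.S52.RealB
import Fermat.Agent.S52.ChebReal

/-!
# [S52/CHOOSE]  choice of `t`: two auxiliary primes whose Frobenius is complex conjugation   (~400 lines on top of `Real.lean`, `ChebReal.lean`)

`H0 = -c4`, `T0 = -c6`.  `RealB.lean` (`exists_real_cusps`, `polF`, `polHT`, `eval_polF`, `eval_polHT`): real numbers `τA τB` with `uF H0 T0 τ = 0`, `(d/dm) uF ≠ 0` at `τ`, and `uH H0 T0 τA * uT H0 T0 τA < 0`, `uH H0 T0 τB * uT H0 T0 τB > 0`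
(so `c4' c6' = uH uT`).  `ChebReal.lean` (`exists_prime_real`): for `h g ∈ ℤ[X]`, `τ ∈ ℝ`, `h(τ) = 0`, `h'(τ) ≠ 0`, `g(τ) > 0`, `S` finite: a prime `r ∉ S`, `GoodQR r`, `n ∈ ℤ` with `r ∣ h(n)`, `r ∤ h'(n)`, `g(n)` a nonzero square mod `r`.
Apply it to `(h, g) = (uF, - uH uT)` at `τA` (`S ⊇` primes dividing `M`): `r1`, `n1`: `- c4' c6'` is a nonzero square mod `r1`, `-1` is not a square: `c4' c6'` is not a square.  And to `(uF, uH uT)` at `τB`, `S ⊇ {r1}`: `r2 ≠ r1`, `n2`.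
Valuation exactly one: `h(n + r) ≡ h(n) + r h'(n) (mod r^2)` (`Polynomial.binomExpansion`), so `n' ∈ {n, n + r}` has `r^2 ∤ h(n')`.
CRT (`M`, `r1^2`, `r2^2` pairwise coprime; `Nat.chineseRemainder` / `Int` version twice): `t ≡ 0 (M)`, `t ≡ n1' (r1^2)`, `t ≡ n2' (r2^2)`.  `h(t) ≡ h(ni') (mod ri^2)`, `g(t) ≡ g(ni') (mod ri)` (`Polynomial.sub_dvd_eval_sub`).
(`uF H0 T0`, `uH H0 T0 * uT H0 T0` as elements of `ℤ[X]`: apply `uF`, `uH`, `uT` in the ring `ℤ[X]` to `C H0`, `C T0`, `X`; `eval` commutes: `map_uF` etc. = `simp [uF]`.)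
-/

set_option autoImplicit false

open Polynomial

namespace Fermat.Agent.S52

namespace Ch

theorem adjust (h : ℤ[X]) (r : ℕ) (n : ℤ)
    (h1 : ¬ (r : ℤ) ∣ (derivative h).eval n) (hr : r ≠ 0) :
    ∃ n' : ℤ, (r : ℤ) ∣ n' - n ∧ ¬ (r : ℤ) ^ 2 ∣ h.eval n' := by
  by_cases hc : (r : ℤ) ^ 2 ∣ h.eval n
  · refine ⟨n + r, by simp, fun hd => h1 ?_⟩
    obtain ⟨k, hk⟩ := Polynomial.binomExpansion h n (r : ℤ)
    rw [hk] at hd
    have h2 : (r : ℤ) ^ 2 ∣ (derivative h).eval n * r := by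
      have h3 := (Int.dvd_add_left (Dvd.intro_left k rfl : (r : ℤ) ^ 2 ∣ k * (r : ℤ) ^ 2)).mp hd
      exact (Int.dvd_add_right hc).mp h3
    rw [sq, mul_comm ((derivative h).eval n)] at h2
    exact Int.dvd_of_mul_dvd_mul_left (by exact_mod_cast hr) h2
  · exact ⟨n, by simp, hc⟩

theorem crt {a b : ℤ} (hab : IsCoprime a b) (x y : ℤ) : ∃ t : ℤ, a ∣ t - x ∧ b ∣ t - y := by
  obtain ⟨u, v, huv⟩ := hab
  refine ⟨x * (v * b) + y * (u * a), ⟨(y - x) * u, ?_⟩, ⟨(x - y) * v, ?_⟩⟩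
  · linear_combination x * huv
  · linear_combination y * huv

theorem val_one {r : ℕ} (hr : r.Prime) {x : ℤ} (h1 : (r : ℤ) ∣ x) (h2 : ¬ (r : ℤ) ^ 2 ∣ x) :
    padicValInt r x = 1 := by
  haveI : Fact r.Prime := ⟨hr⟩
  have hx : x ≠ 0 := by rintro rfl; exact h2 (dvd_zero _)
  have e1 := (padicValInt_dvd_iff (p := r) 1 x).mp (by simpa using h1)
  have e2 : ¬ 2 ≤ padicValInt r x := fun hh => h2 ((padicValInt_dvd_iff (p := r) 2 x).mpr (Or.inr hh))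
  have e3 := e1.resolve_left hx
  omega

/-- the local conditions at one prime depend only on `t mod r^2` -/
theorem local_data (h g : ℤ[X]) {r : ℕ} (hr : r.Prime) (n : ℤ) (h0 : (r : ℤ) ∣ h.eval n)
    (h1 : ¬ (r : ℤ) ∣ (derivative h).eval n) :
    ∃ n' : ℤ, ∀ t : ℤ, (r : ℤ) ^ 2 ∣ t - n' → padicValInt r (h.eval t) = 1 ∧
      ((g.eval t : ℤ) : ZMod r) = ((g.eval n : ℤ) : ZMod r) := by
  obtain ⟨n', hn1, hn2⟩ := adjust h r n h1 hr.ne_zero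
  refine ⟨n', fun t ht => ⟨val_one hr ?_ ?_, ?_⟩⟩
  · have e1 : (r : ℤ) ∣ t - n := by
      have : t - n = (t - n') + (n' - n) := by ring
      rw [this]
      exact dvd_add ((Dvd.intro_left _ (sq (r : ℤ)).symm).trans ht) hn1
    have e2 := e1.trans (Polynomial.sub_dvd_eval_sub t n h)
    have : h.eval t = (h.eval t - h.eval n) + h.eval n := by ring
    rw [this]
    exact dvd_add e2 h0
  · intro hd
    apply hn2
    have e2 := ht.trans (Polynomial.sub_dvd_eval_sub t n' h)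
    have : h.eval n' = h.eval t - (h.eval t - h.eval n') := by ring
    rw [this]
    exact dvd_sub hd e2
  · have e1 : (r : ℤ) ∣ t - n := by
      have : t - n = (t - n') + (n' - n) := by ring
      rw [this]
      exact dvd_add ((Dvd.intro_left _ (sq (r : ℤ)).symm).trans ht) hn1
    have e2 := e1.trans (Polynomial.sub_dvd_eval_sub t n g)
    exact ((ZMod.intCast_eq_intCast_iff_dvd_sub _ _ r).mpr e2).symm

end Ch

theorem exists_param (c4 c6 : ℤ) (h4 : c4 ≠ 0) (h6 : c6 ≠ 0) (hΔ : c4 ^ 3 - c6 ^ 2 ≠ 0)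
    (M : ℕ) (hM : 0 < M) :
    ∃ (t : ℤ) (r1 r2 : ℕ), (M : ℤ) ∣ t ∧ r1.Prime ∧ r2.Prime ∧ ¬ r1 ∣ M ∧ ¬ r2 ∣ M ∧
      GoodQR r1 ∧ GoodQR r2 ∧
      padicValInt r1 (uF (-c4) (-c6) t) = 1 ∧ padicValInt r2 (uF (-c4) (-c6) t) = 1 ∧
      ¬ IsSquare ((uH (-c4) (-c6) t * uT (-c4) (-c6) t : ℤ) : ZMod r1) ∧
      IsSquare ((uH (-c4) (-c6) t * uT (-c4) (-c6) t : ℤ) : ZMod r2) := by
  obtain ⟨τA, τB, a1, a2, a3, b1, b2, b3⟩ := exists_real_cusps c4 c6 h6 hΔ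
  obtain ⟨r1, n1, hr1, hS1, hQ1, c1, c2, c3, c4'⟩ := exists_prime_real (polF c4 c6) (- polHT c4 c6) τA a1 a2
    (by rw [map_neg]; linarith) M.primeFactors
  obtain ⟨r2, n2, hr2, hS2, hQ2, d1, d2, d3, d4⟩ := exists_prime_real (polF c4 c6) (polHT c4 c6) τB b1 b2
    b3 (M.primeFactors ∪ {r1})
  simp only [Finset.mem_union, Finset.mem_singleton, not_or] at hS2
  obtain ⟨hS2, hne⟩ := hS2
  have hM1 : ¬ r1 ∣ M := fun hd => hS1 (Nat.mem_primeFactors.mpr ⟨hr1, hd, hM.ne'⟩)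
  have hM2 : ¬ r2 ∣ M := fun hd => hS2 (Nat.mem_primeFactors.mpr ⟨hr2, hd, hM.ne'⟩)
  obtain ⟨n1', hn1⟩ := Ch.local_data (polF c4 c6) (polHT c4 c6) hr1 n1 c1 c2
  obtain ⟨n2', hn2⟩ := Ch.local_data (polF c4 c6) (polHT c4 c6) hr2 n2 d1 d2
  have cop1 : IsCoprime (M : ℤ) ((r1 : ℤ) ^ 2) := by
    apply IsCoprime.pow_right
    rw [Nat.isCoprime_iff_coprime]
    exact ((Nat.Prime.coprime_iff_not_dvd hr1).mpr hM1).symm
  have cop2 : IsCoprime ((M : ℤ) * (r1 : ℤ) ^ 2) ((r2 : ℤ) ^ 2) := by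
    apply IsCoprime.pow_right
    apply IsCoprime.mul_left
    · rw [Nat.isCoprime_iff_coprime]
      exact ((Nat.Prime.coprime_iff_not_dvd hr2).mpr hM2).symm
    · apply IsCoprime.pow_left
      rw [Nat.isCoprime_iff_coprime]
      exact (Nat.coprime_primes hr1 hr2).mpr (fun h => hne h.symm)
  obtain ⟨t0, ht1, ht2⟩ := Ch.crt cop1 0 n1'
  obtain ⟨t, ht3, ht4⟩ := Ch.crt cop2 t0 n2'
  have e1 : (M : ℤ) ∣ t := by
    have : t = (t - t0) + (t0 - 0) := by ring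
    rw [this]
    exact dvd_add ((Dvd.intro _ rfl).trans ht3) ht1
  have e2 : (r1 : ℤ) ^ 2 ∣ t - n1' := by
    have : t - n1' = (t - t0) + (t0 - n1') := by ring
    rw [this]
    exact dvd_add ((Dvd.intro_left _ rfl).trans ht3) ht2
  obtain ⟨f1, f2⟩ := hn1 t e2
  obtain ⟨g1, g2⟩ := hn2 t ht4
  rw [eval_polF] at f1 g1
  rw [eval_polHT] at f2 g2
  refine ⟨t, r1, r2, e1, hr1, hr2, hM1, hM2, hQ1, hQ2, f1, g1, ?_, ?_⟩
  · rw [f2]
    intro hsq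
    haveI : Fact r1.Prime := ⟨hr1⟩
    apply hQ1.1
    rw [eval_neg] at c3 c4'
    have hx : (((polHT c4 c6).eval n1 : ℤ) : ZMod r1) ≠ 0 := by
      rw [Ne, ZMod.intCast_zmod_eq_zero_iff_dvd]
      intro hd
      exact c3 ((dvd_neg).mpr hd)
    have := c4'.div hsq
    rwa [Int.cast_neg, neg_div_self hx] at this
  · rw [g2]; exact d4

end Fermat.Agent.S52
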