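import Fermat.Agent.S52.T.Sp
import Fermat.Agent.S52.T.Short

/-!
# S52 : what block T exports

`ap_congr_of_family` : let `ℓ ≥ 7` be a prime of good reduction for `W` and `W'`, `k` an algebraically closed field of characteristic `ℓ`,
`𝒞4 𝒞6 : (ZMod ℓ)[X]` two polynomials in the parameter `m` with `(𝒞4, 𝒞6)(s) = (c₄, c₆)(W)`, `(𝒞4, 𝒞6)(s') = (c₄, c₆)(W')` mod `ℓ`, and
`(x, y) ∈ k[m]²` a point of order 5 of the curve `y² = x³ - 27 𝒞4 x - 54 𝒞6` over `k(m)`.  Then `a_ℓ(W') ≡ a_ℓ(W) mod 5`.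
-/

set_option autoImplicit false

noncomputable section

namespace Fermat.Agent.S52.T

open Polynomial WeierstrassCurve

theorem ap_congr_of_family (W W' : WeierstrassCurve ℤ) {ℓ : ℕ} [Fact ℓ.Prime] (h7 : 7 ≤ ℓ)
    (hg : W.IsGoodPrimeFor ℓ) (hg' : W'.IsGoodPrimeFor ℓ)
    {k : Type*} [Field k] [Algebra (ZMod ℓ) k] [IsAlgClosed k] [DecidableEq k]
    (𝒞4 𝒞6 : (ZMod ℓ)[X]) (s s' : ZMod ℓ)
    (e4 : 𝒞4.eval s = ((W.c₄ : ℤ) : ZMod ℓ)) (e6 : 𝒞6.eval s = ((W.c₆ : ℤ) : ZMod ℓ))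
    (e4' : 𝒞4.eval s' = ((W'.c₄ : ℤ) : ZMod ℓ)) (e6' : 𝒞6.eval s' = ((W'.c₆ : ℤ) : ZMod ℓ))
    (x y : k[X])
    (hns : (sw (jj k (C (-27) * 𝒞4)) (jj k (C (-54) * 𝒞6))).toAffine.Nonsingular
      (algebraMap k[X] (RatFunc k) x) (algebraMap k[X] (RatFunc k) y))
    (h5t : 5 • (Affine.Point.some _ _ hns :
      Pt (jj k (C (-27) * 𝒞4)) (jj k (C (-54) * 𝒞6))) = 0) :
    (5 : ℤ) ∣ W'.apOfModel ℓ - W.apOfModel ℓ := by
  have E4 : (C (-27) * 𝒞4).eval s = -27 * ((W.c₄ : ℤ) : ZMod ℓ) := by rw [eval_mul, eval_C, e4]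
  have E6 : (C (-54) * 𝒞6).eval s = -54 * ((W.c₆ : ℤ) : ZMod ℓ) := by rw [eval_mul, eval_C, e6]
  have E4' : (C (-27) * 𝒞4).eval s' = -27 * ((W'.c₄ : ℤ) : ZMod ℓ) := by rw [eval_mul, eval_C, e4']
  have E6' : (C (-54) * 𝒞6).eval s' = -54 * ((W'.c₆ : ℤ) : ZMod ℓ) := by rw [eval_mul, eval_C, e6']
  have h := sp_congr (k := k) (by omega) (by omega) (C (-27) * 𝒞4) (C (-54) * 𝒞6) x y hns h5t s s'
    (by rw [E4, E6]; exact disc_ne_zero_of_good W (by omega) hg)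
    (by rw [E4', E6']; exact disc_ne_zero_of_good W' (by omega) hg')
  rw [E4, E6, E4', E6'] at h
  rw [apOfModel_eq W (by omega), apOfModel_eq W' (by omega)]
  have e : ∀ a b : ℤ, (ℓ : ℤ) + 1 - b - ((ℓ : ℤ) + 1 - a) = a - b := by intro a b; ring
  rw [e]
  exact h

end Fermat.Agent.S52.T
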