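import Fermat.Agent.S52.Univ

/-!
# S52/F3: every `(H0, T0)` with `T0^2 + H0^3 ≠ 0` is `(kH v, kT v)` over an algebraically closed field of characteristic `≠ 2, 3, 5`
-/

set_option autoImplicit false

open Polynomial

namespace Fermat.Agent.S52

variable {K : Type*} [Field K]

theorem kH5_decomp (u w : K) :
    -kH5 u w = kG5 u w * (u ^ 2 - 239 * u * w + 3124 * w ^ 2) + 3125 * w ^ 3 * (w - 11 * u) := by
  unfold kH5 kG5; ring

theorem no_common_zero (h5 : (5 : K) ≠ 0) {x y : K} (hf : kf x y = 0) (hH : kH x y = 0) :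
    x = 0 ∧ y = 0 := by
  by_cases hx : x = 0
  · subst hx
    refine ⟨rfl, ?_⟩
    have : y ^ 20 = 0 := by
      have := hH
      unfold kH at this
      linear_combination -this
    exact pow_eq_zero_iff (by norm_num) |>.mp this
  by_cases hy : y = 0
  · subst hy
    refine ⟨?_, rfl⟩
    have : x ^ 20 = 0 := by
      have := hH
      unfold kH at this
      linear_combination -this
    exact pow_eq_zero_iff (by norm_num) |>.mp this
  exfalso
  rw [kf_eq5] at hf
  rw [kH_eq5] at hH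
  have hG : kG5 (x ^ 5) (y ^ 5) = 0 := by
    rcases mul_eq_zero.mp hf with h | h
    · exact absurd h (mul_ne_zero hx hy)
    · exact h
  have h1 := kH5_decomp (x ^ 5) (y ^ 5)
  rw [hG, hH] at h1
  have hw : y ^ 5 ≠ 0 := pow_ne_zero _ hy
  have h3125 : (3125 : K) ≠ 0 := by
    have : (3125 : K) = 5 ^ 5 := by norm_num
    rw [this]; exact pow_ne_zero _ h5
  have h2 : y ^ 5 - 11 * x ^ 5 = 0 := by
    have : 3125 * (y ^ 5) ^ 3 * (y ^ 5 - 11 * x ^ 5) = 0 := by linear_combination -h1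
    rcases mul_eq_zero.mp this with h | h
    · exact absurd h (mul_ne_zero h3125 (pow_ne_zero _ hw))
    · exact h
  have h3 : (x ^ 5) ^ 2 = 0 := by
    unfold kG5 at hG
    have e : y ^ 5 = 11 * x ^ 5 := by linear_combination h2
    rw [e] at hG
    linear_combination hG
  exact hx (pow_eq_zero_iff (by norm_num) |>.mp (pow_eq_zero_iff (by norm_num) |>.mp h3))

theorem no_common_zero' (h2 : (2 : K) ≠ 0) (h3 : (3 : K) ≠ 0) (h5 : (5 : K) ≠ 0) {x y : K}
    (hH : kH x y = 0) (hT : kT x y = 0) : x = 0 ∧ y = 0 := by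
  refine no_common_zero h5 ?_ hH
  have h := klein x y
  rw [hH, hT] at h
  have h1728 : (1728 : K) ≠ 0 := by
    have : (1728 : K) = 2 ^ 6 * 3 ^ 3 := by norm_num
    rw [this]; exact mul_ne_zero (pow_ne_zero _ h2) (pow_ne_zero _ h3)
  have : 1728 * kf x y ^ 5 = 0 := by linear_combination -h
  rcases mul_eq_zero.mp this with h' | h'
  · exact absurd h' h1728
  · exact pow_eq_zero_iff (by norm_num) |>.mp h'

theorem kH_hom (z y : K) : kH (z * y) y = y ^ 20 * kH z 1 := by unfold kH; ring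
theorem kT_hom (z y : K) : kT (z * y) y = y ^ 30 * kT z 1 := by unfold kT; ring

/-- `- kH X 1`, monic of degree 20 -/
noncomputable def pH : K[X] := X ^ 20 - 228 * X ^ 15 + 494 * X ^ 10 + 228 * X ^ 5 + 1

/-- `kT X 1`, monic of degree 30 -/
noncomputable def pT : K[X] := X ^ 30 + 522 * X ^ 25 - 10005 * X ^ 20 - 10005 * X ^ 10 - 522 * X ^ 5 + 1

theorem eval_pH (z : K) : (pH : K[X]).eval z = -kH z 1 := by
  simp only [pH, kH, eval_add, eval_sub, eval_mul, eval_pow, eval_X, eval_one, eval_ofNat]; ring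

theorem eval_pT (z : K) : (pT : K[X]).eval z = kT z 1 := by
  simp only [pT, kT, eval_add, eval_sub, eval_mul, eval_pow, eval_X, eval_one, eval_ofNat]; ring

theorem monic_pH : (pH : K[X]).Monic := by unfold pH; monicity!
theorem monic_pT : (pT : K[X]).Monic := by unfold pT; monicity!
theorem natDegree_pH : (pH : K[X]).natDegree = 20 := by unfold pH; compute_degree!
theorem natDegree_pT : (pT : K[X]).natDegree = 30 := by unfold pT; compute_degree!

/-- [S52/F3] -/
theorem exists_point [IsAlgClosed K] (h2 : (2 : K) ≠ 0) (h3 : (3 : K) ≠ 0) (h5 : (5 : K) ≠ 0)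
    (H0 T0 : K) (h : T0 ^ 2 + H0 ^ 3 ≠ 0) : ∃ x y : K, kH x y = H0 ∧ kT x y = T0 := by
  have hnc : ∀ z : K, ¬ (kH z 1 = 0 ∧ kT z 1 = 0) := fun z hz =>
    one_ne_zero (no_common_zero' h2 h3 h5 hz.1 hz.2).2
  by_cases hH0 : H0 = 0
  · -- root of `pH`
    obtain ⟨z, hz⟩ := IsAlgClosed.exists_root (pH : K[X]) (by
      rw [degree_eq_natDegree monic_pH.ne_zero, natDegree_pH]; norm_num)
    rw [IsRoot.def, eval_pH, neg_eq_zero] at hz
    have hT : kT z 1 ≠ 0 := fun hT => hnc z ⟨hz, hT⟩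
    obtain ⟨y, hy⟩ := IsAlgClosed.exists_pow_nat_eq (T0 / kT z 1) (n := 30) (by norm_num)
    refine ⟨z * y, y, ?_, ?_⟩
    · rw [kH_hom, hz, hH0, mul_zero]
    · rw [kT_hom, hy, div_mul_cancel₀ _ hT]
  by_cases hT0 : T0 = 0
  · obtain ⟨z, hz⟩ := IsAlgClosed.exists_root (pT : K[X]) (by
      rw [degree_eq_natDegree monic_pT.ne_zero, natDegree_pT]; norm_num)
    rw [IsRoot.def, eval_pT] at hz
    have hH : kH z 1 ≠ 0 := fun hH => hnc z ⟨hH, hz⟩
    obtain ⟨y, hy⟩ := IsAlgClosed.exists_pow_nat_eq (H0 / kH z 1) (n := 20) (by norm_num)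
    refine ⟨z * y, y, ?_, ?_⟩
    · rw [kH_hom, hy, div_mul_cancel₀ _ hH]
    · rw [kT_hom, hz, hT0, mul_zero]
  -- general case
  set Rp : K[X] := C (H0 ^ 3) * pT ^ 2 + C (T0 ^ 2) * pH ^ 3 with hRp
  have hm1 : ((pT : K[X]) ^ 2).Monic := monic_pT.pow 2
  have hm2 : ((pH : K[X]) ^ 3).Monic := monic_pH.pow 3
  have hd1 : ((pT : K[X]) ^ 2).natDegree = 60 := by rw [monic_pT.natDegree_pow, natDegree_pT]
  have hd2 : ((pH : K[X]) ^ 3).natDegree = 60 := by rw [monic_pH.natDegree_pow, natDegree_pH]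
  have hc : Rp.coeff 60 = T0 ^ 2 + H0 ^ 3 := by
    rw [hRp, coeff_add, coeff_C_mul, coeff_C_mul]
    have e1 : ((pT : K[X]) ^ 2).coeff 60 = 1 := by rw [← hd1]; exact hm1.coeff_natDegree
    have e2 : ((pH : K[X]) ^ 3).coeff 60 = 1 := by rw [← hd2]; exact hm2.coeff_natDegree
    rw [e1, e2]; ring
  have hdeg : Rp.degree ≠ 0 := by
    intro h0
    have : Rp.coeff 60 = 0 := coeff_eq_zero_of_degree_lt (by rw [h0]; norm_num)
    exact h (by rw [← hc, this])
  obtain ⟨z, hz⟩ := IsAlgClosed.exists_root Rp hdeg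
  rw [IsRoot.def, hRp, eval_add, eval_mul, eval_mul, eval_C, eval_C, eval_pow, eval_pow, eval_pH,
    eval_pT] at hz
  have hrel : H0 ^ 3 * kT z 1 ^ 2 = T0 ^ 2 * kH z 1 ^ 3 := by linear_combination hz
  have hH : kH z 1 ≠ 0 := by
    intro hH
    rw [hH] at hrel
    have : kT z 1 = 0 := by
      have : H0 ^ 3 * kT z 1 ^ 2 = 0 := by rw [hrel]; ring
      rcases mul_eq_zero.mp this with h' | h'
      · exact absurd h' (pow_ne_zero _ hH0)
      · exact pow_eq_zero_iff (by norm_num) |>.mp h'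
    exact hnc z ⟨hH, this⟩
  have hT : kT z 1 ≠ 0 := by
    intro hT
    rw [hT] at hrel
    have : kH z 1 = 0 := by
      have : T0 ^ 2 * kH z 1 ^ 3 = 0 := by rw [← hrel]; ring
      rcases mul_eq_zero.mp this with h' | h'
      · exact absurd h' (pow_ne_zero _ hT0)
      · exact pow_eq_zero_iff (by norm_num) |>.mp h'
    exact hH this
  set a := H0 / kH z 1 with ha
  set b := T0 / kT z 1 with hb
  have ha0 : a ≠ 0 := div_ne_zero hH0 hH
  have hab : a ^ 3 = b ^ 2 := by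
    rw [ha, hb, div_pow, div_pow, div_eq_div_iff (pow_ne_zero _ hH) (pow_ne_zero _ hT)]
    exact hrel
  obtain ⟨y, hy⟩ := IsAlgClosed.exists_pow_nat_eq (b / a) (n := 10) (by norm_num)
  refine ⟨z * y, y, ?_, ?_⟩
  · rw [kH_hom]
    have : y ^ 20 = a := by
      have : y ^ 20 = (y ^ 10) ^ 2 := by ring
      rw [this, hy, div_pow, ← hab]
      field_simp
    rw [this, ha, div_mul_cancel₀ _ hH]
  · rw [kT_hom]
    have : y ^ 30 = b := by
      have : y ^ 30 = (y ^ 10) ^ 3 := by ring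
      rw [this, hy, div_pow, hab]
      have hb0 : b ≠ 0 := div_ne_zero hT0 hT
      field_simp
    rw [this, hb, div_mul_cancel₀ _ hT]

end Fermat.Agent.S52
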