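import Fermat.Agent.S52.Univ

/-!
# S52/F2: `Q(x,y) = (kX x y, kY x y)` is a point of order 5 of `Y^2 = X^3 + 27 kH X + 54 kT`
`2 Q(x,y) = - Q(-y,x)` (the tangent slope is the polynomial `kL`), `kH`, `kT` are invariant under `(x,y) ↦ (-y,x)`, `Q(-x,-y) = - Q(x,y)`; so `4 Q = - Q`.
-/

set_option autoImplicit false
set_option linter.unusedSectionVars false

open WeierstrassCurve WeierstrassCurve.Affine

namespace Fermat.Agent.S52

section ring
variable {R : Type*} [CommRing R]

/-- the slope of the tangent at `Q` -/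
def kL (x y : R) : R :=
  3 * x ^ 5 - 6 * x ^ 4 * y + 18 * x ^ 3 * y ^ 2 + 6 * x ^ 2 * y ^ 3 + 12 * x * y ^ 4 + 3 * y ^ 5

theorem kQ_eqn (x y : R) : kY x y ^ 2 = kX x y ^ 3 + 27 * kH x y * kX x y + 54 * kT x y := by
  unfold kY kX kH kT; ring

theorem kL_slope (x y : R) : 2 * kY x y * kL x y = 3 * kX x y ^ 2 + 27 * kH x y := by
  unfold kY kX kH kL; ring

theorem kX_J (x y : R) : kX (-y) x = kL x y ^ 2 - 2 * kX x y := by
  unfold kX kL; ring

theorem kY_J (x y : R) : kY (-y) x = kL x y * (kX (-y) x - kX x y) + kY x y := by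
  unfold kX kL kY; ring

theorem kH_J (x y : R) : kH (-y) x = kH x y := by unfold kH; ring
theorem kT_J (x y : R) : kT (-y) x = kT x y := by unfold kT; ring
theorem kX_neg (x y : R) : kX (-x) (-y) = kX x y := by unfold kX; ring
theorem kY_neg (x y : R) : kY (-x) (-y) = -kY x y := by unfold kY; ring

end ring

variable {K : Type*} [Field K] [DecidableEq K]

/-- `E : Y^2 = X^3 + 27 kH(x,y) X + 54 kT(x,y)`, nonsingular -/
structure IsK (E : WeierstrassCurve K) (x y : K) : Prop where
  a1 : E.a₁ = 0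
  a2 : E.a₂ = 0
  a3 : E.a₃ = 0
  a4 : E.a₄ = 27 * kH x y
  a6 : E.a₆ = 54 * kT x y
  disc : E.Δ ≠ 0

theorem IsK.J {E : WeierstrassCurve K} {x y : K} (h : IsK E x y) : IsK E (-y) x :=
  ⟨h.a1, h.a2, h.a3, by rw [h.a4, kH_J], by rw [h.a6, kT_J], h.disc⟩

theorem kQ_nonsingular {E : WeierstrassCurve K} {x y : K} (h : IsK E x y) :
    E.toAffine.Nonsingular (kX x y) (kY x y) := by
  rw [← equation_iff_nonsingular_of_Δ_ne_zero h.disc, equation_iff, h.a1, h.a2, h.a3, h.a4, h.a6]
  linear_combination kQ_eqn x y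

theorem kY_ne_zero {E : WeierstrassCurve K} {x y : K} (h : IsK E x y) : kY x y ≠ 0 := by
  intro h0
  have hn := kQ_nonsingular h
  rw [nonsingular_iff, h.a1, h.a2, h.a3, h.a4] at hn
  have hs := kL_slope x y
  rw [h0] at hs
  rcases hn.2 with h1 | h1
  · apply h1
    linear_combination hs
  · apply h1
    rw [h0]; ring

theorem two_ne_zero_of_isK {E : WeierstrassCurve K} {x y : K} (h : IsK E x y) : (2 : K) ≠ 0 := by
  intro h2
  apply h.disc
  have e : E.Δ = -16 * (4 * E.a₄ ^ 3 + 27 * E.a₆ ^ 2) := by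
    simp only [WeierstrassCurve.Δ, WeierstrassCurve.b₂, WeierstrassCurve.b₄, WeierstrassCurve.b₆,
      WeierstrassCurve.b₈, h.a1, h.a2, h.a3]
    ring
  rw [e]
  linear_combination (-8 * (4 * E.a₄ ^ 3 + 27 * E.a₆ ^ 2)) * h2

theorem kQ_double {E : WeierstrassCurve K} {x y : K} (h : IsK E x y) :
    Point.some _ _ (kQ_nonsingular h) + Point.some _ _ (kQ_nonsingular h)
      = -Point.some _ _ (kQ_nonsingular h.J) := by
  have h2 := two_ne_zero_of_isK h
  have hy := kY_ne_zero h
  have hne : kY x y ≠ E.toAffine.negY (kX x y) (kY x y) := by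
    rw [negY, h.a1, h.a3]
    intro e
    apply hy
    have : 2 * kY x y = 0 := by linear_combination e
    exact (mul_eq_zero.mp this).resolve_left h2
  have hsl : E.toAffine.slope (kX x y) (kX x y) (kY x y) (kY x y) = kL x y := by
    rw [slope_of_Y_ne rfl hne, negY, h.a1, h.a2, h.a3, h.a4]
    rw [div_eq_iff (by
      intro e
      apply hy
      have : 2 * kY x y = 0 := by linear_combination e
      exact (mul_eq_zero.mp this).resolve_left h2)]
    linear_combination -kL_slope x y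
  rw [Point.add_self_of_Y_ne' hne, neg_inj]
  have hX : E.toAffine.addX (kX x y) (kX x y) (E.toAffine.slope (kX x y) (kX x y) (kY x y) (kY x y))
      = kX (-y) x := by
    rw [hsl, addX, h.a1, h.a2, kX_J]; ring
  have hY : E.toAffine.negAddY (kX x y) (kX x y) (kY x y)
      (E.toAffine.slope (kX x y) (kX x y) (kY x y) (kY x y)) = kY (-y) x := by
    rw [negAddY, hX, hsl, kY_J]
  simp only [hX, hY]

theorem kQ_neg {E : WeierstrassCurve K} {x y : K} (h : IsK E x y) (h' : IsK E (-x) (-y)) :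
    Point.some _ _ (kQ_nonsingular h') = -Point.some _ _ (kQ_nonsingular h) := by
  rw [Point.neg_some]
  simp only [negY, h.a1, h.a3, kX_neg, kY_neg]
  congr 1
  ring

/-- [S52/F2] -/
theorem kQ_five {E : WeierstrassCurve K} {x y : K} (h : IsK E x y) :
    (5 : ℤ) • Point.some _ _ (kQ_nonsingular h) = 0 := by
  have h1 := kQ_double h
  have h2 := kQ_double h.J
  have h3 := kQ_neg h h.J.J
  set P := Point.some _ _ (kQ_nonsingular h)
  set P1 := Point.some _ _ (kQ_nonsingular h.J)
  set P2 := Point.some _ _ (kQ_nonsingular h.J.J)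
  have e : (5 : ℤ) • P = (P + P) + (P + P) + P := by abel
  rw [e, h1]
  have : -P1 + -P1 = -(P1 + P1) := by abel
  rw [this, h2, h3]
  abel

end Fermat.Agent.S52
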