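import Fermat.Agent.S52.If
import Fermat.Agent.S52.IfT
import Fermat.Agent.S52.Tors
import Fermat.Agent.S52.Point

/-!
# [S52/CONG]   `a_ℓ(W') ≡ a_ℓ(W) (mod 5)` for `ℓ ≥ 7`: bridge from the F-block to `T.ap_congr_of_family`
-/

set_option autoImplicit false

open Polynomial WeierstrassCurve

namespace Fermat.Agent.S52

theorem ap_congr (W W' : WeierstrassCurve ℤ) (t : ℤ)
    (h4 : W'.c₄ = -uH (-W.c₄) (-W.c₆) t) (h6 : W'.c₆ = -uT (-W.c₄) (-W.c₆) t)
    (ℓ : ℕ) (hℓ : ℓ.Prime) (h7 : 7 ≤ ℓ) (hg : W.IsGoodPrimeFor ℓ) (hg' : W'.IsGoodPrimeFor ℓ) :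
    (5 : ℤ) ∣ W'.apOfModel ℓ - W.apOfModel ℓ := by
  classical
  haveI : Fact ℓ.Prime := ⟨hℓ⟩
  let k := AlgebraicClosure (ZMod ℓ)
  let ι : ZMod ℓ →+* k := algebraMap (ZMod ℓ) k
  have hιinj : Function.Injective ι := ι.injective
  -- small primes are invertible
  have hnat : ∀ n : ℕ, 0 < n → n < 7 → (n : ZMod ℓ) ≠ 0 := by
    intro n h0 h1 h
    rw [ZMod.natCast_eq_zero_iff] at h
    exact absurd (Nat.le_of_dvd h0 h) (by omega)
  have hk : ∀ n : ℕ, 0 < n → n < 7 → (n : k) ≠ 0 := by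
    intro n h0 h1 h
    apply hnat n h0 h1
    apply hιinj
    rw [map_natCast, map_zero]; exact h
  have k2 : (2 : k) ≠ 0 := by exact_mod_cast hk 2 (by norm_num) (by norm_num)
  have k3 : (3 : k) ≠ 0 := by exact_mod_cast hk 3 (by norm_num) (by norm_num)
  have k5 : (5 : k) ≠ 0 := by exact_mod_cast hk 5 (by norm_num) (by norm_num)
  set H0 : ZMod ℓ := -((W.c₄ : ℤ) : ZMod ℓ) with hH0
  set T0 : ZMod ℓ := -((W.c₆ : ℤ) : ZMod ℓ) with hT0
  -- the discriminant
  have hdisc : T0 ^ 2 + H0 ^ 3 ≠ 0 := by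
    intro h
    apply hg
    have hrel := W.c_relation
    have h1 : ((1728 * W.Δ : ℤ) : ZMod ℓ) = 0 := by
      rw [hrel]; push_cast
      rw [hH0, hT0] at h
      linear_combination -h
    rw [ZMod.intCast_zmod_eq_zero_iff_dvd] at h1
    have hp : Prime (ℓ : ℤ) := Nat.prime_iff_prime_int.mp hℓ
    rcases hp.dvd_or_dvd h1 with h2 | h2
    · exfalso
      have : (ℓ : ℤ) ∣ 2 ^ 6 * 3 ^ 3 := by norm_num; exact h2
      rcases hp.dvd_or_dvd this with h3 | h3
      · have := Int.le_of_dvd (by norm_num) (hp.dvd_of_dvd_pow h3); omega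
      · have := Int.le_of_dvd (by norm_num) (hp.dvd_of_dvd_pow h3); omega
    · exact h2
  obtain ⟨x0, y0, hx0, hy0⟩ := exists_point (K := k) k2 k3 k5 (ι H0) (ι T0) (by
    rw [← map_pow, ← map_pow, ← map_add]
    exact fun h => hdisc (hιinj (by rw [h, map_zero])))
  -- the family
  set C4 : (ZMod ℓ)[X] := -uH (C H0) (C T0) X with hC4
  set C6 : (ZMod ℓ)[X] := -uT (C H0) (C T0) X with hC6
  have evH : ∀ s : ZMod ℓ, C4.eval s = -uH H0 T0 s := by
    intro s
    have := map_uH (evalRingHom s) (C H0) (C T0) X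
    simp only [coe_evalRingHom, eval_C, eval_X] at this
    rw [hC4, eval_neg, this]
  have evT : ∀ s : ZMod ℓ, C6.eval s = -uT H0 T0 s := by
    intro s
    have := map_uT (evalRingHom s) (C H0) (C T0) X
    simp only [coe_evalRingHom, eval_C, eval_X] at this
    rw [hC6, eval_neg, this]
  have e4 : C4.eval 0 = ((W.c₄ : ℤ) : ZMod ℓ) := by rw [evH, uH_zero, hH0, neg_neg]
  have e6 : C6.eval 0 = ((W.c₆ : ℤ) : ZMod ℓ) := by rw [evT, uT_zero, hT0, neg_neg]
  have e4' : C4.eval ((t : ℤ) : ZMod ℓ) = ((W'.c₄ : ℤ) : ZMod ℓ) := by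
    rw [evH, h4]
    have := map_uH (Int.castRingHom (ZMod ℓ)) (-W.c₄) (-W.c₆) t
    simp only [eq_intCast, Int.cast_neg] at this
    rw [Int.cast_neg, this]
  have e6' : C6.eval ((t : ℤ) : ZMod ℓ) = ((W'.c₆ : ℤ) : ZMod ℓ) := by
    rw [evT, h6]
    have := map_uT (Int.castRingHom (ZMod ℓ)) (-W.c₄) (-W.c₆) t
    simp only [eq_intCast, Int.cast_neg] at this
    rw [Int.cast_neg, this]
  -- the point of order 5 over `k[m]`
  set vx : k[X] := (vt (C x0) (C y0) (X : k[X])).1 with hvx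
  set vy : k[X] := (vt (C x0) (C y0) (X : k[X])).2 with hvy
  let j : k[X] →+* RatFunc k := algebraMap k[X] (RatFunc k)
  have hjinj : Function.Injective j := IsFractionRing.injective k[X] (RatFunc k)
  have hHv : kH vx vy = uH (C (ι H0)) (C (ι T0)) X := by
    rw [hvx, hvy, kH_vt, ← map_kH (C : k →+* k[X]), ← map_kT (C : k →+* k[X]), hx0, hy0]
  have hTv : kT vx vy = uT (C (ι H0)) (C (ι T0)) X := by
    rw [hvx, hvy, kT_vt, ← map_kH (C : k →+* k[X]), ← map_kT (C : k →+* k[X]), hx0, hy0]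
  have hfv : kf vx vy = C (kf x0 y0) * uF (C (ι H0)) (C (ι T0)) X := by
    rw [hvx, hvy, kf_vt, ← map_kH (C : k →+* k[X]), ← map_kT (C : k →+* k[X]),
      ← map_kf (C : k →+* k[X]), hx0, hy0]
  have hmapH : (C4.map ι) = -uH (C (ι H0)) (C (ι T0)) X := by
    have := map_uH (mapRingHom ι) (C H0) (C T0) X
    simp only [coe_mapRingHom, map_C, map_X] at this
    rw [hC4, Polynomial.map_neg, this]
  have hmapT : (C6.map ι) = -uT (C (ι H0)) (C (ι T0)) X := by
    have := map_uT (mapRingHom ι) (C H0) (C T0) X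
    simp only [coe_mapRingHom, map_C, map_X] at this
    rw [hC6, Polynomial.map_neg, this]
  have hA : T.jj k (C (-27) * C4) = 27 * kH (j vx) (j vy) := by
    rw [← map_kH j, hHv]
    unfold T.jj
    rw [Polynomial.map_mul, hmapH, map_C]
    simp only [map_mul, map_neg, j]
    have : (algebraMap k[X] (RatFunc k)) (C ((algebraMap (ZMod ℓ) k) 27)) = 27 := by
      rw [map_ofNat, map_ofNat, map_ofNat]
    rw [this]; ring
  have hB : T.jj k (C (-54) * C6) = 54 * kT (j vx) (j vy) := by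
    rw [← map_kT j, hTv]
    unfold T.jj
    rw [Polynomial.map_mul, hmapT, map_C]
    simp only [map_mul, map_neg, j]
    have : (algebraMap k[X] (RatFunc k)) (C ((algebraMap (ZMod ℓ) k) 54)) = 54 := by
      rw [map_ofNat, map_ofNat, map_ofNat]
    rw [this]; ring
  have hf0 : kf x0 y0 ≠ 0 := by
    intro h
    have hk := klein x0 y0
    rw [h, hx0, hy0, ← map_pow, ← map_pow, ← map_add] at hk
    apply hdisc
    apply hιinj
    rw [hk, map_zero]; ring
  have hfne : kf (j vx) (j vy) ≠ 0 := by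
    rw [← map_kf j, hfv]
    intro h
    have h' := hjinj (h.trans (map_zero j).symm)
    have h'' := congrArg (Polynomial.eval 0) h'
    have hu := map_uF (evalRingHom (0 : k)) (C (ι H0)) (C (ι T0)) X
    simp only [coe_evalRingHom, eval_C, eval_X] at hu
    rw [eval_mul, eval_C, hu, uF_zero, mul_one, eval_zero] at h''
    exact hf0 h''
  have F2 : (2 : RatFunc k) ≠ 0 := by
    intro h
    apply k2
    have : (algebraMap k (RatFunc k)) 2 = 0 := by rw [map_ofNat]; exact h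
    exact (map_eq_zero _).mp this
  have F3 : (3 : RatFunc k) ≠ 0 := by
    intro h
    apply k3
    have : (algebraMap k (RatFunc k)) 3 = 0 := by rw [map_ofNat]; exact h
    exact (map_eq_zero _).mp this
  have hIsK : IsK (T.sw (T.jj k (C (-27) * C4)) (T.jj k (C (-54) * C6))) (j vx) (j vy) := by
    refine ⟨rfl, rfl, rfl, hA, hB, ?_⟩
    rw [T.sw_Δ, hA, hB]
    have hk := klein (j vx) (j vy)
    have : -16 * (4 * (27 * kH (j vx) (j vy)) ^ 3 + 27 * (54 * kT (j vx) (j vy)) ^ 2)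
        = -(2 ^ 12 * 3 ^ 12) * kf (j vx) (j vy) ^ 5 := by
      linear_combination (-1259712) * hk
    rw [this]
    exact mul_ne_zero (neg_ne_zero.mpr (mul_ne_zero (pow_ne_zero _ F2) (pow_ne_zero _ F3)))
      (pow_ne_zero _ hfne)
  have hX : algebraMap k[X] (RatFunc k) (kX vx vy) = kX (j vx) (j vy) := map_kX j vx vy
  have hY : algebraMap k[X] (RatFunc k) (kY vx vy) = kY (j vx) (j vy) := map_kY j vx vy
  have hns0 := kQ_nonsingular hIsK
  have h50 := kQ_five hIsK
  have hns : (T.sw (T.jj k (C (-27) * C4)) (T.jj k (C (-54) * C6))).toAffine.Nonsingular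
      (algebraMap k[X] (RatFunc k) (kX vx vy)) (algebraMap k[X] (RatFunc k) (kY vx vy)) := by
    rw [hX, hY]; exact hns0
  refine T.ap_congr_of_family W W' h7 hg hg' (k := k) C4 C6 0 ((t : ℤ) : ZMod ℓ) e4 e6 e4' e6'
    (kX vx vy) (kY vx vy) hns ?_
  have : (Affine.Point.some _ _ hns : T.Pt (T.jj k (C (-27) * C4)) (T.jj k (C (-54) * C6)))
      = Affine.Point.some _ _ hns0 := by
    simp only [hX, hY]
  rw [this]
  have e : (5 : ℕ) • (Affine.Point.some _ _ hns0 : T.Pt (T.jj k (C (-27) * C4)) (T.jj k (C (-54) * C6)))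
      = (5 : ℤ) • Affine.Point.some _ _ hns0 := by
    rw [← natCast_zsmul]; rfl
  rw [e]
  exact h50

end Fermat.Agent.S52
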