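import Mathlib

/-!
# [S52/IRR] the elementary core: a rational root `m / n` of `3 X^4 + 6 a X^2 + 12 b X - a^2`, `a = -27 c4`, `b = -54 c6`, is impossible
in the presence of the two auxiliary primes   (helper26; Mathlib only)
-/

set_option autoImplicit false

namespace Fermat.Agent.S52.Irr

/-- a natural number whose prime factors `≥ 5` occur with even exponents is a square modulo `r` when `2`, `3` are -/
theorem isSquare_cast_of_even (N : ℕ) (hN : N ≠ 0) (r : ℕ)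
    (hev : ∀ p : ℕ, p.Prime → 5 ≤ p → Even (N.factorization p))
    (h2 : IsSquare (2 : ZMod r)) (h3 : IsSquare (3 : ZMod r)) : IsSquare (N : ZMod r) := by
  have h0 : (N : ZMod r) = ((N.factorization.prod fun p k => p ^ k : ℕ) : ZMod r) := by
    rw [Nat.prod_factorization_pow_eq_self hN]
  rw [h0, Finsupp.prod, Nat.cast_prod]
  refine Finset.prod_induction _ IsSquare (fun _ _ => IsSquare.mul) IsSquare.one (fun p hp => ?_)
  have hp' : p.Prime := Nat.prime_of_mem_primeFactors (by simpa using hp)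
  rw [Nat.cast_pow]
  by_cases h5 : 5 ≤ p
  · exact (hev p hp' h5).isSquare_pow _
  · have : p = 2 ∨ p = 3 := by
      have h1 := hp'.two_le
      have h4 : p ≠ 4 := by rintro rfl; exact absurd hp' (by norm_num)
      omega
    rcases this with rfl | rfl
    · exact IsSquare.pow _ (by simpa using h2)
    · exact IsSquare.pow _ (by simpa using h3)

theorem exists_pow_mul (p : ℕ) (hp : p.Prime) (m : ℤ) (hm : m ≠ 0) :
    ∃ m' : ℤ, m = (p : ℤ) ^ (m.natAbs.factorization p) * m' ∧ ¬ (p : ℤ) ∣ m' := by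
  have hk : m.natAbs ≠ 0 := Int.natAbs_ne_zero.2 hm
  refine ⟨m.sign * (m.natAbs / p ^ (m.natAbs.factorization p) : ℕ), ?_, ?_⟩
  · have h1 := Nat.ordProj_mul_ordCompl_eq_self m.natAbs p
    have h2 : m = m.sign * (m.natAbs : ℤ) := (Int.sign_mul_natAbs m).symm
    conv_lhs => rw [h2, ← h1]
    push_cast
    ring
  · intro h
    rw [Int.natCast_dvd, Int.natAbs_mul, Int.natAbs_sign_of_ne_zero hm, one_mul,
      Int.natAbs_natCast] at h
    exact Nat.not_dvd_ordCompl hp hk h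

variable {a b m n : ℤ}

theorem not_dvd_den (hcop : IsCoprime m n)
    (hQ : 3 * m ^ 4 + 6 * a * m ^ 2 * n ^ 2 + 12 * b * m * n ^ 3 - a ^ 2 * n ^ 4 = 0)
    {p : ℤ} (hp : Prime p) (hp3 : ¬ p ∣ 3) : ¬ p ∣ n := by
  intro hpn
  have h1 : p ∣ 3 * m ^ 4 := by
    have : 3 * m ^ 4 = n * (-(6 * a * m ^ 2 * n) - 12 * b * m * n ^ 2 + a ^ 2 * n ^ 3) := by
      linear_combination hQ
    rw [this]
    exact hpn.mul_right _
  rcases hp.dvd_or_dvd h1 with h | h
  · exact hp3 h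
  · have hm := hp.dvd_of_dvd_pow h
    exact hp.not_isUnit (hcop.isUnit_of_dvd' hm hpn)

/-- the valuation of the numerator at `p ≥ 5` is even -/
theorem even_val (ha : a ≠ 0)
    (hQ : 3 * m ^ 4 + 6 * a * m ^ 2 * n ^ 2 + 12 * b * m * n ^ 3 - a ^ 2 * n ^ 4 = 0)
    {p : ℕ} (hp : p.Prime) (hpn : ¬ (p : ℤ) ∣ n) (hp2 : ¬ (p : ℤ) ∣ 2) (hp3 : ¬ (p : ℤ) ∣ 3)
    (hab : (p : ℤ) ∣ a → ¬ (p : ℤ) ∣ b) (e : ℕ) (m' : ℤ) (hm : m = (p : ℤ) ^ e * m')
    (hm' : ¬ (p : ℤ) ∣ m') : Even e := by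
  have hP : Prime (p : ℤ) := Nat.prime_iff_prime_int.1 hp
  rcases Nat.eq_zero_or_pos e with rfl | he
  · exact Even.zero
  obtain ⟨a', haa, ha'⟩ := exists_pow_mul p hp a ha
  set α := a.natAbs.factorization p with hα
  have hpm : (p : ℤ) ∣ m := by
    rw [hm]; exact (dvd_pow_self _ he.ne').mul_right _
  have hpa : (p : ℤ) ∣ a := by
    have h1 : (p : ℤ) ∣ a ^ 2 * n ^ 4 := by
      have : a ^ 2 * n ^ 4 = m * (3 * m ^ 3 + 6 * a * m * n ^ 2 + 12 * b * n ^ 3) := by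
        linear_combination -hQ
      rw [this]; exact hpm.mul_right _
    rcases hP.dvd_or_dvd h1 with h | h
    · exact hP.dvd_of_dvd_pow h
    · exact absurd (hP.dvd_of_dvd_pow h) hpn
  have hpb : ¬ (p : ℤ) ∣ b := hab hpa
  have hα1 : 1 ≤ α := by
    by_contra h0
    have : α = 0 := by omega
    rw [this, pow_zero, one_mul] at haa
    exact ha' (haa ▸ hpa)
  have key : e = 2 * α := by
    rcases lt_trichotomy e (2 * α) with hlt | heq | hgt
    · exfalso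
      -- p^(e+1) ∣ 12 b m n^3
      have h1 : (p : ℤ) ^ (e + 1) ∣ (p : ℤ) ^ e * (12 * b * m' * n ^ 3) := by
        have : (p : ℤ) ^ e * (12 * b * m' * n ^ 3) =
            ((p : ℤ) ^ α * a') ^ 2 * n ^ 4 - 3 * ((p : ℤ) ^ e * m') ^ 4
              - 6 * ((p : ℤ) ^ α * a') * ((p : ℤ) ^ e * m') ^ 2 * n ^ 2 := by
          rw [← haa, ← hm]
          rw [hm] at hQ ⊢
          linear_combination hQ
        rw [this]
        refine dvd_sub (dvd_sub ?_ ?_) ?_
        · rw [mul_pow, ← pow_mul]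
          exact ((pow_dvd_pow _ (by omega)).mul_right _).mul_right _
        · rw [mul_pow, ← pow_mul]
          exact ((pow_dvd_pow _ (by omega)).mul_right _).mul_left _
        · have : 6 * ((p : ℤ) ^ α * a') * ((p : ℤ) ^ e * m') ^ 2 * n ^ 2 =
              (p : ℤ) ^ (α + e * 2) * (6 * a' * m' ^ 2 * n ^ 2) := by
            rw [pow_add, pow_mul]; ring
          rw [this]
          exact (pow_dvd_pow _ (by omega)).mul_right _
      rw [pow_succ] at h1
      have h2 : (p : ℤ) ∣ 12 * b * m' * n ^ 3 :=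
        (mul_dvd_mul_iff_left (pow_ne_zero _ hP.ne_zero)).1 h1
      rcases hP.dvd_or_dvd h2 with h | h
      · rcases hP.dvd_or_dvd h with h | h
        · rcases hP.dvd_or_dvd h with h | h
          · have : (12 : ℤ) = 2 * 2 * 3 := by norm_num
            rw [this] at h
            rcases hP.dvd_or_dvd h with h | h
            · rcases hP.dvd_or_dvd h with h | h <;> exact hp2 h
            · exact hp3 h
          · exact hpb h
        · exact hm' h
      · exact hpn (hP.dvd_of_dvd_pow h)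
    · exact heq
    · exfalso
      have h1 : (p : ℤ) ^ (2 * α + 1) ∣ (p : ℤ) ^ (2 * α) * (a' ^ 2 * n ^ 4) := by
        have : (p : ℤ) ^ (2 * α) * (a' ^ 2 * n ^ 4) =
            3 * ((p : ℤ) ^ e * m') ^ 4
              + 6 * ((p : ℤ) ^ α * a') * ((p : ℤ) ^ e * m') ^ 2 * n ^ 2
              + 12 * b * ((p : ℤ) ^ e * m') * n ^ 3 := by
          have e1 : (p : ℤ) ^ (2 * α) * (a' ^ 2 * n ^ 4) = ((p : ℤ) ^ α * a') ^ 2 * n ^ 4 := by
            rw [mul_comm 2 α, pow_mul]; ring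
          rw [e1, ← haa, ← hm]
          linear_combination -hQ
        rw [this]
        refine dvd_add (dvd_add ?_ ?_) ?_
        · rw [mul_pow, ← pow_mul]
          exact ((pow_dvd_pow _ (by omega)).mul_right _).mul_left _
        · have : 6 * ((p : ℤ) ^ α * a') * ((p : ℤ) ^ e * m') ^ 2 * n ^ 2 =
              (p : ℤ) ^ (α + e * 2) * (6 * a' * m' ^ 2 * n ^ 2) := by
            rw [pow_add, pow_mul]; ring
          rw [this]
          exact (pow_dvd_pow _ (by omega)).mul_right _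
        · have : 12 * b * ((p : ℤ) ^ e * m') * n ^ 3 = (p : ℤ) ^ e * (12 * b * m' * n ^ 3) := by ring
          rw [this]
          exact (pow_dvd_pow _ (by omega)).mul_right _
      rw [pow_succ] at h1
      have h2 : (p : ℤ) ∣ a' ^ 2 * n ^ 4 :=
        (mul_dvd_mul_iff_left (pow_ne_zero _ hP.ne_zero)).1 h1
      rcases hP.dvd_or_dvd h2 with h | h
      · exact ha' (hP.dvd_of_dvd_pow h)
      · exact hpn (hP.dvd_of_dvd_pow h)
  exact ⟨α, by omega⟩

/-- local analysis at a prime `r` with `v_r(D) = 5` -/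
theorem local_r {D : ℤ} (hD : D = 4 * a ^ 3 + 27 * b ^ 2)
    (hQ : 3 * m ^ 4 + 6 * a * m ^ 2 * n ^ 2 + 12 * b * m * n ^ 3 - a ^ 2 * n ^ 4 = 0)
    {r : ℤ} (hr : Prime r) (h2 : ¬ r ∣ 2) (h3 : ¬ r ∣ 3) (hb : ¬ r ∣ b) (hn : ¬ r ∣ n)
    (hD5 : r ^ 5 ∣ D) (hD6 : ¬ r ^ 6 ∣ D) : r ∣ 2 * a * m - 9 * b * n := by
  set Z : ℤ := 2 * a * m + 3 * b * n with hZ
  have hid : 3 * Z ^ 4 - 36 * b * n * Z ^ 3 + 6 * D * n ^ 2 * Z ^ 2 - 12 * b * D * n ^ 3 * Z
      + D * (36 * b ^ 2 - D) * n ^ 4 = 0 := by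
    rw [hZ, hD]
    linear_combination (16 * a ^ 4) * hQ
  have hrD : r ∣ D := (dvd_pow_self r (by norm_num : 5 ≠ 0)).trans hD5
  have h36 : ¬ r ∣ 36 * b * n := by
    intro h
    rcases hr.dvd_or_dvd h with h | h
    · rcases hr.dvd_or_dvd h with h | h
      · have : (36 : ℤ) = 2 * 2 * (3 * 3) := by norm_num
        rw [this] at h
        rcases hr.dvd_or_dvd h with h | h
        · rcases hr.dvd_or_dvd h with h | h <;> exact h2 h
        · rcases hr.dvd_or_dvd h with h | h <;> exact h3 h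
      · exact hb h
    · exact hn h
  have hrZ : ¬ r ∣ Z := by
    rintro ⟨Z1, hZ1⟩
    obtain ⟨D', hD'⟩ := hD5
    by_cases h1 : r ∣ Z1
    · obtain ⟨Z2, hZ2⟩ := h1
      -- r^6 ∣ D (36 b^2 - D) n^4
      have h4 : r ∣ D' * (36 * b ^ 2 - D) * n ^ 4 := by
        have h5 : r ^ 5 * (D' * (36 * b ^ 2 - D) * n ^ 4) = r ^ 5 * (r * (
            -(3 * r ^ 2 * Z2 ^ 4) + 36 * b * n * Z2 ^ 3 - 6 * D' * n ^ 2 * r ^ 3 * Z2 ^ 2
              + 12 * b * D' * n ^ 3 * r * Z2)) := by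
          have h6 := hid
          rw [hZ1, hZ2] at h6
          have h7 : D * (36 * b ^ 2 - D) = r ^ 5 * D' * (36 * b ^ 2 - D) := by rw [← hD']
          rw [h7] at h6
          have h8 : 6 * D * n ^ 2 = 6 * (r ^ 5 * D') * n ^ 2 := by rw [← hD']
          have h9 : 12 * b * D * n ^ 3 = 12 * b * (r ^ 5 * D') * n ^ 3 := by rw [← hD']
          rw [h8, h9] at h6
          linear_combination h6
        exact ⟨_, mul_left_cancel₀ (pow_ne_zero _ hr.ne_zero) h5⟩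
      rcases hr.dvd_or_dvd h4 with h | h
      · rcases hr.dvd_or_dvd h with h | h
        · apply hD6
          obtain ⟨c, hc⟩ := h
          exact ⟨c, by rw [hD', hc]; ring⟩
        · have h10 : r ∣ 36 * b ^ 2 := by
            have := dvd_add h hrD
            simpa using this
          have h11 : r ∣ (36 * b * n) * b := by
            have : (36 * b * n) * b = 36 * b ^ 2 * n := by ring
            rw [this]; exact h10.mul_right _
          rcases hr.dvd_or_dvd h11 with h | h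
          · exact h36 h
          · exact hb h
      · exact hn (hr.dvd_of_dvd_pow h)
    · -- r^4 ∣ 36 b n Z^3
      have h4 : r ∣ 36 * b * n * Z1 ^ 3 := by
        have h5 : r ^ 3 * (36 * b * n * Z1 ^ 3) = r ^ 3 * (r * (
            3 * Z1 ^ 4 + 6 * D' * n ^ 2 * r ^ 3 * Z1 ^ 2 - 12 * b * D' * n ^ 3 * r ^ 2 * Z1
              + r * D' * (36 * b ^ 2 - D) * n ^ 4)) := by
          have h6 := hid
          rw [hZ1] at h6
          have h7 : D * (36 * b ^ 2 - D) = r ^ 5 * D' * (36 * b ^ 2 - D) := by rw [← hD']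
          rw [h7] at h6
          have h8 : 6 * D * n ^ 2 = 6 * (r ^ 5 * D') * n ^ 2 := by rw [← hD']
          have h9 : 12 * b * D * n ^ 3 = 12 * b * (r ^ 5 * D') * n ^ 3 := by rw [← hD']
          rw [h8, h9] at h6
          linear_combination -h6
        exact ⟨_, mul_left_cancel₀ (pow_ne_zero _ hr.ne_zero) h5⟩
      rcases hr.dvd_or_dvd h4 with h | h
      · exact h36 h
      · exact h1 (hr.dvd_of_dvd_pow h)
  -- now `3 Z^3 (Z - 12 b n) ≡ 0`
  have h4 : r ∣ 3 * Z ^ 3 * (Z - 12 * b * n) := by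
    obtain ⟨c, hc⟩ := hrD
    refine ⟨-(6 * c * n ^ 2 * Z ^ 2) + 12 * b * c * n ^ 3 * Z - c * (36 * b ^ 2 - D) * n ^ 4, ?_⟩
    have h7 : D * (36 * b ^ 2 - D) = r * c * (36 * b ^ 2 - D) := by rw [← hc]
    have h8 : 6 * D * n ^ 2 = 6 * (r * c) * n ^ 2 := by rw [← hc]
    have h9 : 12 * b * D * n ^ 3 = 12 * b * (r * c) * n ^ 3 := by rw [← hc]
    rw [h7, h8, h9] at hid
    linear_combination hid
  rcases hr.dvd_or_dvd h4 with h | h
  · rcases hr.dvd_or_dvd h with h | h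
    · exact absurd h h3
    · exact absurd (hr.dvd_of_dvd_pow h) hrZ
  · have : 2 * a * m - 9 * b * n = Z - 12 * b * n := by rw [hZ]; ring
    rw [this]; exact h

theorem isSquare_iff_of_sq_mul {k : Type*} [Field k] {x y u w : k} (hu : u ≠ 0) (hw : w ≠ 0)
    (h : u ^ 2 * x = w ^ 2 * y) : IsSquare x ↔ IsSquare y := by
  constructor
  · rintro ⟨s, rfl⟩
    refine ⟨u * s / w, ?_⟩
    field_simp
    linear_combination -h
  · rintro ⟨s, rfl⟩
    refine ⟨w * s / u, ?_⟩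
    field_simp
    linear_combination h

theorem not_dvd_two_three {p : ℤ} (hp : Prime p) (h2 : ¬ p ∣ 2) (h3 : ¬ p ∣ 3) (i j : ℕ) :
    ¬ p ∣ 2 ^ i * 3 ^ j := by
  intro h
  rcases hp.dvd_or_dvd h with h | h
  · exact h2 (hp.dvd_of_dvd_pow h)
  · exact h3 (hp.dvd_of_dvd_pow h)

theorem not_dvd_small (p : ℕ) (h5 : 5 ≤ p) (k : ℕ) (hk : 0 < k) (hk5 : k < 5) :
    ¬ (p : ℤ) ∣ (k : ℤ) := by
  intro h
  have := Nat.le_of_dvd hk (Int.natCast_dvd_natCast.1 h)
  omega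

section core

variable (c4 c6 Δ : ℤ) (hrel : 1728 * Δ = c4 ^ 3 - c6 ^ 2)
  (hss : ∀ p : ℕ, p.Prime → (p : ℤ) ∣ Δ → ¬ (p : ℤ) ∣ c4)
  (hcop : IsCoprime m n)
  (hQ : 3 * m ^ 4 + 6 * (-27 * c4) * m ^ 2 * n ^ 2 + 12 * (-54 * c6) * m * n ^ 3
    - (-27 * c4) ^ 2 * n ^ 4 = 0)

include hrel hss in
theorem not_dvd_b {p : ℕ} (hp : p.Prime) (h5 : 5 ≤ p) (ha : (p : ℤ) ∣ -27 * c4) :
    ¬ (p : ℤ) ∣ -54 * c6 := by
  have hP : Prime (p : ℤ) := Nat.prime_iff_prime_int.1 hp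
  have h2 : ¬ (p : ℤ) ∣ 2 := not_dvd_small p h5 2 (by norm_num) (by norm_num)
  have h3 : ¬ (p : ℤ) ∣ 3 := not_dvd_small p h5 3 (by norm_num) (by norm_num)
  intro hb
  have hc4 : (p : ℤ) ∣ c4 := by
    rcases hP.dvd_or_dvd ha with h | h
    · exact absurd (by simpa using h) (by simpa using not_dvd_two_three hP h2 h3 0 3)
    · exact h
  have hc6 : (p : ℤ) ∣ c6 := by
    rcases hP.dvd_or_dvd hb with h | h
    · exact absurd (by simpa using h) (by simpa using not_dvd_two_three hP h2 h3 1 3)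
    · exact h
  have h1 : (p : ℤ) ∣ 1728 * Δ := by
    rw [hrel]
    exact dvd_sub (hc4.trans (dvd_pow_self _ (by norm_num))) (hc6.trans (dvd_pow_self _ (by norm_num)))
  rcases hP.dvd_or_dvd h1 with h | h
  · exact absurd h (by simpa using not_dvd_two_three hP h2 h3 6 3)
  · exact hss p hp h hc4

include hrel hss hcop hQ in
theorem per_prime (r : ℕ) (hr : r.Prime) (h5 : 5 ≤ r) (hv : padicValInt r Δ = 5) :
    ¬ (r : ℤ) ∣ m ∧ ¬ (r : ℤ) ∣ n ∧
      (IsSquare ((m * n : ℤ) : ZMod r) ↔ IsSquare ((c4 * c6 : ℤ) : ZMod r)) := by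
  have := Fact.mk hr
  have hP : Prime (r : ℤ) := Nat.prime_iff_prime_int.1 hr
  have h2 : ¬ (r : ℤ) ∣ 2 := not_dvd_small r h5 2 (by norm_num) (by norm_num)
  have h3 : ¬ (r : ℤ) ∣ 3 := not_dvd_small r h5 3 (by norm_num) (by norm_num)
  have hΔ0 : Δ ≠ 0 := by
    rintro rfl
    simp at hv
  have hΔ5 : (r : ℤ) ^ 5 ∣ Δ := (padicValInt_dvd_iff 5 Δ).2 (Or.inr hv.ge)
  have hΔ6 : ¬ (r : ℤ) ^ 6 ∣ Δ := by
    intro h
    rcases (padicValInt_dvd_iff 6 Δ).1 h with h | h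
    · exact hΔ0 h
    · omega
  have hrΔ : (r : ℤ) ∣ Δ := (dvd_pow_self _ (by norm_num : 5 ≠ 0)).trans hΔ5
  have hc4 : ¬ (r : ℤ) ∣ c4 := hss r hr hrΔ
  have ha : ¬ (r : ℤ) ∣ -27 * c4 := by
    intro h
    rcases hP.dvd_or_dvd h with h | h
    · exact absurd (by simpa using h) (by simpa using not_dvd_two_three hP h2 h3 0 3)
    · exact hc4 h
  have hc6 : ¬ (r : ℤ) ∣ c6 := by
    intro h
    have h1 : (r : ℤ) ∣ c4 ^ 3 := by
      have : c4 ^ 3 = 1728 * Δ + c6 ^ 2 := by linear_combination -hrel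
      rw [this]
      exact dvd_add (hrΔ.mul_left _) (h.trans (dvd_pow_self _ (by norm_num)))
    exact hc4 (hP.dvd_of_dvd_pow h1)
  have hb : ¬ (r : ℤ) ∣ -54 * c6 := by
    intro h
    rcases hP.dvd_or_dvd h with h | h
    · exact absurd (by simpa using h) (by simpa using not_dvd_two_three hP h2 h3 1 3)
    · exact hc6 h
  have hn : ¬ (r : ℤ) ∣ n := not_dvd_den hcop hQ hP h3
  have hm : ¬ (r : ℤ) ∣ m := by
    intro hm
    have h1 : (r : ℤ) ∣ (-27 * c4) ^ 2 * n ^ 4 := by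
      have : (-27 * c4) ^ 2 * n ^ 4 = m * (3 * m ^ 3 + 6 * (-27 * c4) * m * n ^ 2
          + 12 * (-54 * c6) * n ^ 3) := by
        linear_combination -hQ
      rw [this]; exact hm.mul_right _
    rcases hP.dvd_or_dvd h1 with h | h
    · exact ha (hP.dvd_of_dvd_pow h)
    · exact hn (hP.dvd_of_dvd_pow h)
  have hD : (-(2 ^ 8 * 3 ^ 12) * Δ : ℤ) = 4 * (-27 * c4) ^ 3 + 27 * (-54 * c6) ^ 2 := by
    linear_combination (-78732 : ℤ) * hrel
  have hD5 : (r : ℤ) ^ 5 ∣ (-(2 ^ 8 * 3 ^ 12) * Δ : ℤ) := hΔ5.mul_left _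
  have hD6 : ¬ (r : ℤ) ^ 6 ∣ (-(2 ^ 8 * 3 ^ 12) * Δ : ℤ) := by
    intro h
    apply hΔ6
    have hc : IsCoprime ((r : ℤ) ^ 6) (-(2 ^ 8 * 3 ^ 12) : ℤ) := by
      apply IsCoprime.pow_left
      rw [IsCoprime.neg_right_iff]
      exact (Prime.coprime_iff_not_dvd hP).2 (not_dvd_two_three hP h2 h3 8 12)
    exact hc.dvd_of_dvd_mul_left h
  have hkey := local_r hD hQ hP h2 h3 hb hn hD5 hD6
  refine ⟨hm, hn, ?_⟩
  have hz : ∀ z : ℤ, ¬ (r : ℤ) ∣ z → ((z : ℤ) : ZMod r) ≠ 0 := fun z hz h =>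
    hz ((ZMod.intCast_zmod_eq_zero_iff_dvd z r).1 h)
  have hk0 : ((2 * (-27 * c4) * m - 9 * (-54 * c6) * n : ℤ) : ZMod r) = 0 :=
    (ZMod.intCast_zmod_eq_zero_iff_dvd _ r).2 hkey
  have hu : ((2 * (-27 * c4) : ℤ) : ZMod r) ≠ 0 := hz _ (by
    intro h
    rcases hP.dvd_or_dvd h with h | h
    · exact h2 h
    · exact ha h)
  have hw : ((162 * n : ℤ) : ZMod r) ≠ 0 := hz _ (by
    intro h
    rcases hP.dvd_or_dvd h with h | h
    · exact absurd h (by simpa using not_dvd_two_three hP h2 h3 1 4)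
    · exact hn h)
  refine isSquare_iff_of_sq_mul hu hw ?_
  push_cast at hk0 ⊢
  linear_combination (2 * (-27 * (c4 : ZMod r)) * (n : ZMod r)) * hk0

include hrel hss hcop hQ in
theorem core (hn0 : n ≠ 0) (r1 r2 : ℕ) (hr1 : r1.Prime) (hr2 : r2.Prime) (h1 : 5 ≤ r1) (h2 : 5 ≤ r2)
    (hq1 : IsSquare (2 : ZMod r1) ∧ IsSquare (3 : ZMod r1))
    (hq2 : ¬ IsSquare (-1 : ZMod r2) ∧ IsSquare (2 : ZMod r2) ∧ IsSquare (3 : ZMod r2))
    (hv1 : padicValInt r1 Δ = 5) (hv2 : padicValInt r2 Δ = 5)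
    (hs1 : ¬ IsSquare ((c4 * c6 : ℤ) : ZMod r1)) (hs2 : IsSquare ((c4 * c6 : ℤ) : ZMod r2)) :
    False := by
  obtain ⟨hm1, hn1, hi1⟩ := per_prime c4 c6 Δ hrel hss hcop hQ r1 hr1 h1 hv1
  obtain ⟨hm2, hn2, hi2⟩ := per_prime c4 c6 Δ hrel hss hcop hQ r2 hr2 h2 hv2
  have hm0 : m ≠ 0 := by
    rintro rfl
    exact hm1 (dvd_zero _)
  have ha0 : (-27 * c4 : ℤ) ≠ 0 := by
    intro h
    have hc : c4 = 0 := by omega
    have := Fact.mk hr1
    have hΔ5 : (r1 : ℤ) ^ 5 ∣ Δ := (padicValInt_dvd_iff 5 Δ).2 (Or.inr hv1.ge)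
    have hrΔ : (r1 : ℤ) ∣ Δ := (dvd_pow_self _ (by norm_num : 5 ≠ 0)).trans hΔ5
    exact hss r1 hr1 hrΔ (hc ▸ dvd_zero _)
  set N : ℕ := m.natAbs * n.natAbs with hN
  have hN0 : N ≠ 0 := Nat.mul_ne_zero (Int.natAbs_ne_zero.2 hm0) (Int.natAbs_ne_zero.2 hn0)
  have hev : ∀ p : ℕ, p.Prime → 5 ≤ p → Even (N.factorization p) := by
    intro p hp h5
    have hP : Prime (p : ℤ) := Nat.prime_iff_prime_int.1 hp
    have hp2 : ¬ (p : ℤ) ∣ 2 := not_dvd_small p h5 2 (by norm_num) (by norm_num)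
    have hp3 : ¬ (p : ℤ) ∣ 3 := not_dvd_small p h5 3 (by norm_num) (by norm_num)
    have hpn : ¬ (p : ℤ) ∣ n := not_dvd_den hcop hQ hP hp3
    obtain ⟨m', hmm, hm'⟩ := exists_pow_mul p hp m hm0
    have he := even_val ha0 hQ hp hpn hp2 hp3 (not_dvd_b c4 c6 Δ hrel hss hp h5) _ m' hmm hm'
    rw [hN, Nat.factorization_mul (Int.natAbs_ne_zero.2 hm0) (Int.natAbs_ne_zero.2 hn0),
      Finsupp.add_apply,
      Nat.factorization_eq_zero_of_not_dvd (n := n.natAbs) (fun h => hpn (Int.natCast_dvd.2 h)),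
      add_zero]
    exact he
  have hsq1 := isSquare_cast_of_even N hN0 r1 hev hq1.1 hq1.2
  have hsq2 := isSquare_cast_of_even N hN0 r2 hev hq2.2.1 hq2.2.2
  have hNabs : (N : ℤ) = |m * n| := by
    rw [hN, Nat.cast_mul, Int.natCast_natAbs, Int.natCast_natAbs, abs_mul]
  rcases abs_choice (m * n) with habs | habs
  · -- `m n = N`
    apply hs1
    rw [← hi1]
    have : (m * n : ℤ) = (N : ℤ) := by rw [hNabs, habs]
    rw [this, Int.cast_natCast]
    exact hsq1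
  · -- `m n = - N`
    have := Fact.mk hr2
    have h3 : IsSquare ((m * n : ℤ) : ZMod r2) := hi2.2 hs2
    have h4 : (m * n : ℤ) = -(N : ℤ) := by rw [hNabs, habs, neg_neg]
    rw [h4, Int.cast_neg, Int.cast_natCast] at h3
    have hNr : (N : ZMod r2) ≠ 0 := by
      intro h
      have h5 : (r2 : ℤ) ∣ (N : ℤ) := by
        rw [← ZMod.intCast_zmod_eq_zero_iff_dvd]
        simpa using h
      rw [hNabs, dvd_abs] at h5
      rcases (Nat.prime_iff_prime_int.1 hr2).dvd_or_dvd h5 with h | h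
      · exact hm2 h
      · exact hn2 h
    obtain ⟨s, hs⟩ := hsq2
    obtain ⟨t, ht⟩ := h3
    have hs0 : s ≠ 0 := by
      rintro rfl
      exact hNr (by rw [hs, mul_zero])
    apply hq2.1
    refine ⟨t / s, ?_⟩
    field_simp
    linear_combination ht + hs

end core

end Fermat.Agent.S52.Irr
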