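import Fermat.Agent.S52.If
import Fermat.Agent.S52.IrrCore
import Fermat.Agent.S51.Main

/-!
# [S52/IRR]  irreducibility of `E[3]` from two auxiliary primes    (~700 lines, elementary number theory; can be split IRR-a/b/c)

Suppose not.  **(a)** As in `S51/Main.lean` (`data3`, `exists_three`): there is `x0 ∈ ℚ` with `3 x0^4 + b2 x0^3 + 3 b4 x0^2 + 3 b6 x0 + b8 = 0`.  Put `X = 36 x0 + 3 b2`, `a = -27 c4`, `b = -54 c6`: then (`ring` identity, using `b_relation`)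
 `(Q)  3 X^4 + 6 a X^2 + 12 b X - a^2 = 0`.   `X ≠ 0` (else `a = 0`, `c4 = 0`, excluded: a prime `r1 ∣ Δ` would divide `c4`).
**(b) global**: for every prime `p ≥ 5`, `padicValRat p X` is even.  [`p ∤ a`: all roots of (Q) are `p`-units: if `v(X) < 0` the term `3X^4` is the unique minimum; if `v(X) > 0` the term `a^2`.  `p ∣ a`: then `p ∣ c4`, semistable: `p ∤ Δ`, so `p ∤ c6`, `p ∤ b`.  `v(X) < 0` impossible; `v(X) = 0` fine; `v(X) = e > 0`: `v(12 b X) = e`, `v(a^2) = 2 v(a)`, `v(3X^4) = 4e`, `v(6 a X^2) ≥ 1 + 2e`: so `e = 2 v(a)`.]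
 Hence `X = ε 2^i 3^j s^2`, `ε = ± 1`, `s ∈ ℚ^×`  (`i, j ∈ ℤ`).
**(c) local at `r ∈ {r1, r2}`** (`r ≥ 5`, `r ∣ Δ`, so `r ∤ c4`, `r ∤ a`; `D := 4 a^3 + 27 b^2 = -2^? 3^? Δ`: precisely `D = 4 (-27 c4)^3 + 27 (54 c6)^2 = -78732 (c4^3 - c6^2) = -78732 * 1728 Δ`, `v_r(D) = 5`; `r ∤ b`).
 `s0 := -3 b / (2 a)`, `z := X - s0`.  Identity: `ψ(s0 + z) = 3 z^4 + 12 s0 z^3 + 6 A4 z^2 + 12 A6 z + (12 s0 A6 - A4^2)`, `A4 = D/(4 a^2)`, `A6 = - b D/(8 a^3)`  (curve `y^2 = z^3 + 3 s0 z^2 + A4 z + A6`; check with `field_simp; ring`).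
 `v(z) < 0`: `3z^4` unique minimum.  `v(z) = e > 0`: `v(12 s0 z^3) = 3e`, constant term has valuation exactly `5`, the others are `> min`: `3 e = 5` impossible.  So `v(z) = 0` and `3 z + 12 s0 ≡ 0`, `z ≡ -4 s0`, `X ≡ -3 s0 = 9 b/(2a) (mod r)`.
 So `X` is an `r`-unit and `X * (2 a) ≡ 9 b`; mod squares `X ~ 2 a b = 2 * 27 * 54 c4 c6 = 54^2 c4 c6 ~ c4 c6`.
**(d)** `GoodQR r`: `2, 3` squares, `-1` not: `X = ε 2^i 3^j s^2` is a square mod `r` iff `ε = 1` (`v_r(s) = 0`).  So `ε = 1 ↔ IsSquare (c4 c6 mod r)` for `r = r1` and `r = r2`: contradiction with `hs1`, `hs2`.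
 (Work in `ZMod r` with numerators/denominators: `X = m/n`, `r ∤ m n`; or with `padicValRat` + `ZMod` casts of `ℚ` via `Rat.num/den`.)
-/

set_option autoImplicit false

namespace Fermat.Agent.S52

open WeierstrassCurve WeierstrassCurve.Affine WeierstrassCurve.Affine.Point Fermat.Agent.S51

local notation "Kbar" => AlgebraicClosure ℚ

/-- a Galois stable line in `E[3]` gives a rational root of the 3-division polynomial -/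
theorem Irr.exists_root (W : WeierstrassCurve ℤ) (hΔ : W.Δ ≠ 0) (hn3 : ¬ W.ModRepIsIrreducible 3) :
    ∃ x0 : ℚ, 3 * x0 ^ 4 + (W.b₂ : ℚ) * x0 ^ 3 + 3 * (W.b₄ : ℚ) * x0 ^ 2 + 3 * (W.b₆ : ℚ) * x0
      + (W.b₈ : ℚ) = 0 := by
  set E0 : WeierstrassCurve.Affine ℚ := W.map (Int.castRingHom ℚ) with hE0
  have hb2 : (E0⁄Kbar).b₂ = ((W.b₂ : ℚ) : Kbar) := by
    simp [hE0, WeierstrassCurve.baseChange, WeierstrassCurve.map_b₂]
  have hb4 : (E0⁄Kbar).b₄ = ((W.b₄ : ℚ) : Kbar) := by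
    simp [hE0, WeierstrassCurve.baseChange, WeierstrassCurve.map_b₄]
  have hb6 : (E0⁄Kbar).b₆ = ((W.b₆ : ℚ) : Kbar) := by
    simp [hE0, WeierstrassCurve.baseChange, WeierstrassCurve.map_b₆]
  have hb8 : (E0⁄Kbar).b₈ = ((W.b₈ : ℚ) : Kbar) := by
    simp [hE0, WeierstrassCurve.baseChange, WeierstrassCurve.map_b₈]
  have hΔE : (E0⁄Kbar).Δ ≠ 0 := by
    have : (E0⁄Kbar).Δ = ((W.Δ : ℚ) : Kbar) := by
      simp [hE0, WeierstrassCurve.baseChange, WeierstrassCurve.map_Δ]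
    rw [this]
    exact_mod_cast hΔ
  have h3 : ∃ N : Submodule (ZMod 3) (Submodule.torsionBy ℤ (E0⁄Kbar).Point (3:ℕ)),
      IsGaloisStable ℚ N ∧ N ≠ ⊥ ∧ N ≠ ⊤ := by
    by_contra hno
    apply hn3
    refine ⟨?_, fun N hN => ?_⟩
    · obtain ⟨P, hP0, hP3⟩ := exists_three (E0⁄Kbar) hΔE
      exact ⟨⟨⟨P, by simpa using hP3⟩, 0, fun h => hP0 (congrArg Subtype.val h)⟩⟩
    · by_contra hc
      rw [not_or] at hc
      exact hno ⟨N, hN, hc.1, hc.2⟩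
  obtain ⟨N3, hst3, h30, h31⟩ := h3
  obtain ⟨x0, hx0⟩ := data3 E0 N3 hst3 h30 h31
  rw [eq_ratCast] at hx0
  simp only [p3, hb2, hb4, hb6, hb8] at hx0
  exact ⟨x0, by exact_mod_cast hx0⟩

theorem irreducible_three (W : WeierstrassCurve ℤ) (hΔ : W.Δ ≠ 0) (hW : W.IsSemistableModel)
    (r1 r2 : ℕ) (hr1 : r1.Prime) (hr2 : r2.Prime) (h1 : 5 ≤ r1) (h2 : 5 ≤ r2)
    (hq1 : GoodQR r1) (hq2 : GoodQR r2)
    (hv1 : padicValInt r1 W.Δ = 5) (hv2 : padicValInt r2 W.Δ = 5)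
    (hs1 : ¬ IsSquare ((W.c₄ * W.c₆ : ℤ) : ZMod r1)) (hs2 : IsSquare ((W.c₄ * W.c₆ : ℤ) : ZMod r2)) :
    W.ModRepIsIrreducible 3 := by
  by_contra hn3
  obtain ⟨x0, hx0⟩ := Irr.exists_root W hΔ hn3
  set X : ℚ := 36 * x0 + 3 * (W.b₂ : ℚ) with hX
  have h8 : 4 * (W.b₈ : ℚ) = (W.b₂ : ℚ) * (W.b₆ : ℚ) - (W.b₄ : ℚ) ^ 2 := by
    exact_mod_cast congrArg (fun z : ℤ => (z : ℚ)) W.b_relation
  have hc4 : (W.c₄ : ℚ) = (W.b₂ : ℚ) ^ 2 - 24 * (W.b₄ : ℚ) := by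
    rw [WeierstrassCurve.c₄]; push_cast; ring
  have hc6 : (W.c₆ : ℚ) = -(W.b₂ : ℚ) ^ 3 + 36 * (W.b₂ : ℚ) * (W.b₄ : ℚ) - 216 * (W.b₆ : ℚ) := by
    rw [WeierstrassCurve.c₆]; push_cast; ring
  have hQ' : 3 * X ^ 4 + 6 * (-27 * (W.c₄ : ℚ)) * X ^ 2 + 12 * (-54 * (W.c₆ : ℚ)) * X
      - (-27 * (W.c₄ : ℚ)) ^ 2 = 0 := by
    rw [hc4, hc6, hX]
    linear_combination 1679616 * hx0 - 419904 * h8
  have hQ : 3 * X.num ^ 4 + 6 * (-27 * W.c₄) * X.num ^ 2 * (X.den : ℤ) ^ 2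
      + 12 * (-54 * W.c₆) * X.num * (X.den : ℤ) ^ 3 - (-27 * W.c₄) ^ 2 * (X.den : ℤ) ^ 4 = 0 := by
    have hXq : X * (X.den : ℚ) = (X.num : ℚ) := Rat.mul_den_eq_num X
    have h1 : ((3 * X.num ^ 4 + 6 * (-27 * W.c₄) * X.num ^ 2 * (X.den : ℤ) ^ 2
      + 12 * (-54 * W.c₆) * X.num * (X.den : ℤ) ^ 3 - (-27 * W.c₄) ^ 2 * (X.den : ℤ) ^ 4 : ℤ) : ℚ)
        = 0 := by
      push_cast
      rw [← hXq]
      linear_combination (X.den : ℚ) ^ 4 * hQ'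
    exact_mod_cast h1
  have hcop : IsCoprime X.num (X.den : ℤ) := by
    rw [Int.isCoprime_iff_gcd_eq_one]
    exact X.reduced
  exact Irr.core W.c₄ W.c₆ W.Δ W.c_relation hW hcop hQ (by exact_mod_cast X.den_nz) r1 r2 hr1 hr2
    h1 h2 hq1.2 hq2 hv1 hv2 hs1 hs2

end Fermat.Agent.S52
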