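import Fermat.Agent.S52.If

/-!
# [S52/K1]  `c4 ≠ 0`, `c6 ≠ 0` for a semistable integral model
`1728 Δ = c4^3 - c6^2` (`W.c_relation`).
* `c4 = 0`: every prime `p ∣ Δ` divides `c4 = 0`, forbidden; so `Δ = ± 1`, `c6^2 = ∓ 1728`; `1728` is not a square.
* `c6 = 0`: `c4^3 = 1728 Δ`; a prime `p ∣ Δ` divides `c4`: forbidden; so `Δ = ± 1`, `c4^3 = ± 1728`, `c4 = ± 12`.
  `c4 = b2^2 - 24 b4`, `b2 = a1^2 + 4 a2`: `b2` even, so `a1` even, so `4 ∣ b2`, `8 ∣ b2^2 - 24 b4 = ± 12`: false.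
-/

set_option autoImplicit false

namespace Fermat.Agent.S52

theorem k1_unit_of_no_prime (d : ℤ) (h : ∀ p : ℕ, p.Prime → ¬ (p : ℤ) ∣ d) : d = 1 ∨ d = -1 := by
  have h1 : d.natAbs = 1 := by
    by_contra hne
    obtain ⟨p, hp, hpd⟩ := Nat.exists_prime_and_dvd hne
    exact h p hp (Int.natCast_dvd.mpr hpd)
  exact Int.natAbs_eq_iff.mp h1 |>.imp (by simp) (by simp)

theorem c4_c6_ne_zero (W : WeierstrassCurve ℤ) (hΔ : W.Δ ≠ 0) (hW : W.IsSemistableModel) :
    W.c₄ ≠ 0 ∧ W.c₆ ≠ 0 := by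
  have hrel := W.c_relation
  constructor
  · intro h4
    have hu := k1_unit_of_no_prime W.Δ (fun p hp hd => hW p hp hd (by rw [h4]; exact dvd_zero _))
    rw [h4] at hrel
    rcases hu with h | h
    · rw [h] at hrel
      nlinarith [sq_nonneg W.c₆]
    · rw [h] at hrel
      have h2 : W.c₆ ^ 2 = 1728 := by linarith
      have h3 : W.c₆ ≤ 41 := by nlinarith
      have h4 : -41 ≤ W.c₆ := by nlinarith
      generalize W.c₆ = z at h2 h3 h4
      interval_cases z <;> omega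
  · intro h6
    rw [h6] at hrel
    have hu := k1_unit_of_no_prime W.Δ (fun p hp hd => hW p hp hd (by
      have hp' : Prime (p : ℤ) := Nat.prime_iff_prime_int.mp hp
      have : (p : ℤ) ∣ W.c₄ ^ 3 := by
        have e : W.c₄ ^ 3 = 1728 * W.Δ := by linarith
        rw [e]; exact Dvd.dvd.mul_left hd _
      exact hp'.dvd_of_dvd_pow this))
    have h12 : W.c₄ = 12 ∨ W.c₄ = -12 := by
      rcases hu with h | h
      · rw [h] at hrel
        left
        have h2 : W.c₄ ^ 3 = 1728 := by linarith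
        have h3 : W.c₄ ≤ 12 := by nlinarith [sq_nonneg W.c₄, sq_nonneg (W.c₄ + 12)]
        have h4 : 0 ≤ W.c₄ := by nlinarith [sq_nonneg W.c₄]
        generalize W.c₄ = z at h2 h3 h4 ⊢
        interval_cases z <;> omega
      · rw [h] at hrel
        right
        have h2 : W.c₄ ^ 3 = -1728 := by linarith
        have h3 : -12 ≤ W.c₄ := by nlinarith [sq_nonneg W.c₄, sq_nonneg (W.c₄ - 12)]
        have h4 : W.c₄ ≤ 0 := by nlinarith [sq_nonneg W.c₄]
        generalize W.c₄ = z at h2 h3 h4 ⊢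
        interval_cases z <;> omega
    have hmod : (∃ m : ℤ, W.c₄ = 8 * m) ∨ (∃ m : ℤ, W.c₄ = 8 * m + 1) := by
      rcases Int.even_or_odd' W.a₁ with ⟨k, hk | hk⟩
      · left
        refine ⟨2 * (k ^ 2 + W.a₂) ^ 2 - 3 * (2 * W.a₄ + 2 * k * W.a₃), ?_⟩
        simp only [WeierstrassCurve.c₄, WeierstrassCurve.b₂, WeierstrassCurve.b₄, hk]
        ring
      · right
        refine ⟨2 * (k ^ 2 + k + W.a₂) ^ 2 + (k ^ 2 + k + W.a₂) - 3 * (2 * W.a₄ + (2 * k + 1) * W.a₃), ?_⟩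
        simp only [WeierstrassCurve.c₄, WeierstrassCurve.b₂, WeierstrassCurve.b₄, hk]
        ring
    rcases hmod with ⟨m, hm⟩ | ⟨m, hm⟩ <;> rcases h12 with h | h <;> omega

end Fermat.Agent.S52
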