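import Fermat.Agent.S52.If
import Fermat.Agent.S52.Point

/-!
# [S52/MOD]  the integral semistable model `W'` of the member `t` of the pencil

`M = 48 * 864 * 30 * |Δ|`.  Let `M ∣ t`, `c4' = - uH (-c4) (-c6) t`, `c6' = - uT (-c4) (-c6) t`; `t ∣ c4' - c4`, `t ∣ c6' - c6`, `t ∣ uF - 1`.
`W' := ⟨a1, a2, a3, a4 - 25920 D e4, a6 - (1440 D e6 + 2160 D e4 b2)⟩`.
New primes `p ∤ M`: a common zero of `kH`, `kT` on the pencil over `𝔽̄_p` is impossible (`exists_point`, `no_common_zero'`, Euler).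
-/

set_option autoImplicit false

open Polynomial

namespace Fermat.Agent.S52

theorem uH_sub_dvd (H T m : ℤ) : m ∣ uH H T m - H := by
  have h := Polynomial.sub_dvd_eval_sub m 0 (uH (C H) (C T) (X : ℤ[X]))
  have e : ∀ s : ℤ, (uH (C H) (C T) (X : ℤ[X])).eval s = uH H T s := by
    intro s
    have := map_uH (evalRingHom s) (C H) (C T) X
    simpa using this
  rwa [e, e, uH_zero, sub_zero] at h

theorem uT_sub_dvd (H T m : ℤ) : m ∣ uT H T m - T := by
  have h := Polynomial.sub_dvd_eval_sub m 0 (uT (C H) (C T) (X : ℤ[X]))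
  have e : ∀ s : ℤ, (uT (C H) (C T) (X : ℤ[X])).eval s = uT H T s := by
    intro s
    have := map_uT (evalRingHom s) (C H) (C T) X
    simpa using this
  rwa [e, e, uT_zero, sub_zero] at h

theorem uF_sub_dvd (H T m : ℤ) : m ∣ uF H T m - 1 := by
  have h := Polynomial.sub_dvd_eval_sub m 0 (uF (C H) (C T) (X : ℤ[X]))
  have e : ∀ s : ℤ, (uF (C H) (C T) (X : ℤ[X])).eval s = uF H T s := by
    intro s
    have := map_uF (evalRingHom s) (C H) (C T) X
    simpa using this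
  rwa [e, e, uF_zero, sub_zero] at h

/-- no new prime of additive reduction -/
theorem mod_new_prime (c4 c6 D t : ℤ) (hrel : 1728 * D = c4 ^ 3 - c6 ^ 2) (p : ℕ) (hp : p.Prime)
    (h7 : 7 ≤ p) (hD : ¬ (p : ℤ) ∣ D) (h4 : (p : ℤ) ∣ uH (-c4) (-c6) t)
    (h6 : (p : ℤ) ∣ uT (-c4) (-c6) t) : False := by
  classical
  haveI : Fact p.Prime := ⟨hp⟩
  let k := AlgebraicClosure (ZMod p)
  let ι : ℤ →+* k := Int.castRingHom k
  haveI : CharP k p := by
    haveI : Algebra (ZMod p) k := inferInstance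
    exact charP_of_injective_algebraMap (algebraMap (ZMod p) k).injective p
  have hι : ∀ z : ℤ, ι z = 0 ↔ (p : ℤ) ∣ z := fun z => CharP.intCast_eq_zero_iff k p z
  have hk : ∀ n : ℤ, 0 < n → n < 7 → ι n ≠ 0 := by
    intro n h0 h1 h
    rw [hι] at h
    have := Int.le_of_dvd h0 h
    omega
  have k2 : (2 : k) ≠ 0 := by have := hk 2 (by norm_num) (by norm_num); simpa [ι] using this
  have k3 : (3 : k) ≠ 0 := by have := hk 3 (by norm_num) (by norm_num); simpa [ι] using this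
  have k5 : (5 : k) ≠ 0 := by have := hk 5 (by norm_num) (by norm_num); simpa [ι] using this
  have hdisc : ι (-c6) ^ 2 + ι (-c4) ^ 3 ≠ 0 := by
    rw [← map_pow, ← map_pow, ← map_add]
    intro h
    rw [hι] at h
    have e : (-c6) ^ 2 + (-c4) ^ 3 = -(1728 * D) := by rw [hrel]; ring
    rw [e, dvd_neg] at h
    have hp' : Prime (p : ℤ) := Nat.prime_iff_prime_int.mp hp
    rcases hp'.dvd_or_dvd h with h2 | h2
    · have : (p : ℤ) ∣ 2 ^ 6 * 3 ^ 3 := by norm_num; exact h2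
      rcases hp'.dvd_or_dvd this with h3 | h3
      · have := Int.le_of_dvd (by norm_num) (hp'.dvd_of_dvd_pow h3); omega
      · have := Int.le_of_dvd (by norm_num) (hp'.dvd_of_dvd_pow h3); omega
    · exact hD h2
  obtain ⟨x0, y0, hx0, hy0⟩ := exists_point (K := k) k2 k3 k5 (ι (-c4)) (ι (-c6)) hdisc
  have hH : kH (vt x0 y0 (ι t)).1 (vt x0 y0 (ι t)).2 = 0 := by
    rw [kH_vt, hx0, hy0, ← map_uH, hι]; exact h4
  have hT : kT (vt x0 y0 (ι t)).1 (vt x0 y0 (ι t)).2 = 0 := by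
    rw [kT_vt, hx0, hy0, ← map_uT, hι]; exact h6
  obtain ⟨e1, e2⟩ := no_common_zero' k2 k3 k5 hH hT
  simp only [vt] at e1 e2
  have hE := kf_euler x0 y0
  have h12 : (12 : k) * kf x0 y0 = 0 := by
    rw [← hE]
    linear_combination kfx x0 y0 * e1 + kfy x0 y0 * e2
  have hf : kf x0 y0 = 0 := by
    rcases mul_eq_zero.mp h12 with h | h
    · exfalso
      have : (12 : k) = 2 ^ 2 * 3 := by norm_num
      rw [this] at h
      exact mul_ne_zero (pow_ne_zero _ k2) k3 h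
    · exact h
  apply hdisc
  have hk := klein x0 y0
  rw [hf, hx0, hy0] at hk
  rw [hk]; ring

theorem exists_modulus (W : WeierstrassCurve ℤ) (hΔ : W.Δ ≠ 0) (hW : W.IsSemistableModel) :
    ∃ M : ℕ, 0 < M ∧ 30 ∣ M ∧ W.Δ ∣ (M : ℤ) ∧ ∀ t : ℤ, (M : ℤ) ∣ t →
      ∃ W' : WeierstrassCurve ℤ, W'.c₄ = -uH (-W.c₄) (-W.c₆) t ∧ W'.c₆ = -uT (-W.c₄) (-W.c₆) t ∧
        W'.Δ = W.Δ * uF (-W.c₄) (-W.c₆) t ^ 5 ∧ W'.IsSemistableModel ∧
        ∀ ℓ : ℕ, ℓ.Prime → ℓ ∣ M → W'.reductionMod ℓ = W.reductionMod ℓ := by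
  set D : ℕ := W.Δ.natAbs with hD
  have hD0 : 0 < D := Int.natAbs_pos.mpr hΔ
  refine ⟨48 * 864 * 30 * D, by positivity, ⟨48 * 864 * D, by ring⟩, ?_, ?_⟩
  · have : W.Δ ∣ (D : ℤ) := by rw [hD]; exact Int.dvd_natAbs_self
    push_cast
    exact Dvd.dvd.mul_left this _
  intro t ht
  have hrel := W.c_relation
  set c4 := W.c₄ with hc4
  set c6 := W.c₆ with hc6
  have hM : ((48 * 864 * 30 * D : ℕ) : ℤ) = 48 * 864 * 30 * (D : ℤ) := by push_cast; ring
  rw [hM] at ht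
  obtain ⟨e4, he4⟩ : (48 * 864 * 30 * (D : ℤ)) ∣ -uH (-c4) (-c6) t - c4 := by
    have := ht.trans (uH_sub_dvd (-c4) (-c6) t)
    have e : -uH (-c4) (-c6) t - c4 = -(uH (-c4) (-c6) t - -c4) := by ring
    rw [e, dvd_neg]; exact this
  obtain ⟨e6, he6⟩ : (48 * 864 * 30 * (D : ℤ)) ∣ -uT (-c4) (-c6) t - c6 := by
    have := ht.trans (uT_sub_dvd (-c4) (-c6) t)
    have e : -uT (-c4) (-c6) t - c6 = -(uT (-c4) (-c6) t - -c6) := by ring
    rw [e, dvd_neg]; exact this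
  obtain ⟨eF, heF⟩ : (48 * 864 * 30 * (D : ℤ)) ∣ uF (-c4) (-c6) t - 1 :=
    ht.trans (uF_sub_dvd (-c4) (-c6) t)
  set W' : WeierstrassCurve ℤ := ⟨W.a₁, W.a₂, W.a₃, W.a₄ - 25920 * D * e4,
    W.a₆ - (1440 * D * e6 + 2160 * D * e4 * W.b₂)⟩ with hW'
  have h4 : W'.c₄ = -uH (-c4) (-c6) t := by
    have : W'.c₄ = c4 + 48 * 864 * 30 * (D : ℤ) * e4 := by
      simp only [hW', hc4, WeierstrassCurve.c₄, WeierstrassCurve.b₂, WeierstrassCurve.b₄]
      ring
    rw [this, ← he4]; ring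
  have h6 : W'.c₆ = -uT (-c4) (-c6) t := by
    have : W'.c₆ = c6 + 48 * 864 * 30 * (D : ℤ) * e6 := by
      simp only [hW', hc6, WeierstrassCurve.c₆, WeierstrassCurve.b₂, WeierstrassCurve.b₄,
        WeierstrassCurve.b₆]
      ring
    rw [this, ← he6]; ring
  have hΔ' : W'.Δ = W.Δ * uF (-c4) (-c6) t ^ 5 := by
    have h1 := W'.c_relation
    rw [h4, h6] at h1
    have h2 := uRel (-c4) (-c6) t
    have : 1728 * W'.Δ = 1728 * (W.Δ * uF (-c4) (-c6) t ^ 5) := by
      linear_combination h1 - h2 - uF (-c4) (-c6) t ^ 5 * hrel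
    linarith
  have hprimes : ∀ ℓ : ℕ, ℓ.Prime → ℓ ∣ 48 * 864 * 30 * D → (ℓ : ℤ) ∣ 30 * (D : ℤ) := by
    intro ℓ hℓ hd
    have : ℓ ∣ 30 * D := by
      have e : 48 * 864 * 30 * D = 2 ^ 9 * 3 ^ 4 * (30 * D) := by ring
      rw [e] at hd
      rcases (Nat.Prime.dvd_mul hℓ).mp hd with h | h
      · rcases (Nat.Prime.dvd_mul hℓ).mp h with h' | h'
        · exact Dvd.dvd.mul_right ((hℓ.dvd_of_dvd_pow h').trans (by norm_num)) _
        · exact Dvd.dvd.mul_right ((hℓ.dvd_of_dvd_pow h').trans (by norm_num)) _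
      · exact h
    exact_mod_cast this
  refine ⟨W', h4, h6, hΔ', ?_, ?_⟩
  · -- semistable
    intro p hp hpΔ hpc
    by_cases hpM : p ∣ 48 * 864 * 30 * D
    · have h30 := hprimes p hp hpM
      have hbig : (p : ℤ) ∣ 48 * 864 * 30 * (D : ℤ) := by
        have e : 48 * 864 * 30 * (D : ℤ) = 48 * 864 * (30 * (D : ℤ)) := by ring
        rw [e]; exact Dvd.dvd.mul_left h30 _
      have hc : (p : ℤ) ∣ c4 := by
        have e : c4 = W'.c₄ - 48 * 864 * 30 * (D : ℤ) * e4 := by rw [h4, ← he4]; ring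
        rw [e]; exact dvd_sub hpc (Dvd.dvd.mul_right hbig _)
      have hF : (p : ℤ) ∣ uF (-c4) (-c6) t - 1 := by rw [heF]; exact Dvd.dvd.mul_right hbig _
      have hp' : Prime (p : ℤ) := Nat.prime_iff_prime_int.mp hp
      rw [hΔ'] at hpΔ
      rcases hp'.dvd_or_dvd hpΔ with h | h
      · exact hW p hp h hc
      · have h1 := hp'.dvd_of_dvd_pow h
        have : (p : ℤ) ∣ 1 := by
          have := dvd_sub h1 hF
          simpa using this
        exact hp'.not_isUnit (isUnit_of_dvd_one this)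
    · have h7 : 7 ≤ p := by
        by_contra hlt
        push Not at hlt
        have h2 : ¬ p ∣ 30 := fun hd => hpM (Dvd.dvd.mul_right (Dvd.dvd.mul_left hd _) _)
        interval_cases p
        · exact absurd hp (by norm_num)
        · exact absurd hp (by norm_num)
        · exact h2 (by norm_num)
        · exact h2 (by norm_num)
        · exact absurd hp (by norm_num)
        · exact h2 (by norm_num)
        · exact absurd hp (by norm_num)
      have hpD : ¬ (p : ℤ) ∣ W.Δ := by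
        intro h
        apply hpM
        have : p ∣ D := by rw [hD]; exact Int.natCast_dvd.mp h
        exact Dvd.dvd.mul_left this _
      have hp' : Prime (p : ℤ) := Nat.prime_iff_prime_int.mp hp
      have hc6 : (p : ℤ) ∣ W'.c₆ := by
        have h1 := W'.c_relation
        have : (p : ℤ) ∣ W'.c₆ ^ 2 := by
          have e : W'.c₆ ^ 2 = W'.c₄ ^ 3 - 1728 * W'.Δ := by linarith
          rw [e]
          exact dvd_sub (dvd_pow hpc (by norm_num)) (Dvd.dvd.mul_left hpΔ _)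
        exact hp'.dvd_of_dvd_pow this
      rw [h4, dvd_neg] at hpc
      rw [h6, dvd_neg] at hc6
      exact mod_new_prime c4 c6 W.Δ t hrel p hp h7 hpD hpc hc6
  · intro ℓ hℓ hd
    have h30 := hprimes ℓ hℓ hd
    have z : ∀ m : ℤ, (((30 * (D : ℤ)) * m : ℤ) : ZMod ℓ) = 0 := by
      intro m
      rw [ZMod.intCast_zmod_eq_zero_iff_dvd]
      exact Dvd.dvd.mul_right h30 _
    unfold WeierstrassCurve.reductionMod
    ext
    · rfl
    · rfl
    · rfl
    · simp only [hW', WeierstrassCurve.map_a₄, eq_intCast]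
      have e : W.a₄ - 25920 * (D : ℤ) * e4 = W.a₄ - (30 * (D : ℤ)) * (864 * e4) := by ring
      rw [e, Int.cast_sub, z, sub_zero]
    · simp only [hW', WeierstrassCurve.map_a₆, eq_intCast]
      have e : W.a₆ - (1440 * (D : ℤ) * e6 + 2160 * (D : ℤ) * e4 * W.b₂)
          = W.a₆ - (30 * (D : ℤ)) * (48 * e6 + 72 * e4 * W.b₂) := by ring
      rw [e, Int.cast_sub, z, sub_zero]

end Fermat.Agent.S52
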