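import Fermat.Statements.S52
-- NOTE: this is the body of the future `Fermat/Agent/S52.lean` (`result := top`); the file `S52.lean` is created only when the closure is sorry-free
-- (the closure contains long `ring` computations: do not let the interim gradings build it for nothing).
import Fermat.Agent.S52.K1
import Fermat.Agent.S52.Mod
import Fermat.Agent.S52.Choose
import Fermat.Agent.S52.Irr
import Fermat.Agent.S52.Cong

set_option autoImplicit false
open WeierstrassCurve WeierstrassCurve.Affine WeierstrassCurve.Affine.Point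
open CuspForm ModularFormClass UpperHalfPlane
open WeierstrassCurve

namespace Fermat.Agent.S52

theorem top (W : WeierstrassCurve ℤ) (hΔ : W.Δ ≠ 0) (hW : W.IsSemistableModel) (h5 : W.ModRepIsIrreducible 5) : ∃ W' : WeierstrassCurve ℤ, W'.Δ ≠ 0 ∧ W'.IsSemistableModel ∧ W'.ModRepIsIrreducible 3 ∧ ∀ ℓ : ℕ, ℓ.Prime → W.IsGoodPrimeFor ℓ → W'.IsGoodPrimeFor ℓ → ℓ ≠ 5 → (5 : ℤ) ∣ (W'.apOfModel ℓ - W.apOfModel ℓ) := by
  obtain ⟨h4, h6⟩ := c4_c6_ne_zero W hΔ hW
  have hD : W.c₄ ^ 3 - W.c₆ ^ 2 ≠ 0 := by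
    have := W.c_relation
    intro h
    rw [h] at this
    exact hΔ (by omega)
  obtain ⟨M, hM, h30, hΔM, hmod⟩ := exists_modulus W hΔ hW
  obtain ⟨t, r1, r2, htM, hr1, hr2, hr1M, hr2M, hq1, hq2, hv1, hv2, hs1, hs2⟩ :=
    exists_param W.c₄ W.c₆ h4 h6 hD M hM
  have hh0 : uF (-W.c₄) (-W.c₆) t ≠ 0 := by
    intro h0
    rw [h0] at hv1
    simp at hv1
  obtain ⟨W', hc4, hc6, hΔ', hss, hred⟩ := hmod t htM
  have hΔ'0 : W'.Δ ≠ 0 := by
    rw [hΔ']
    exact mul_ne_zero hΔ (pow_ne_zero _ hh0)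
  have hge : ∀ r : ℕ, r.Prime → ¬ r ∣ M → 7 ≤ r := by
    intro r hr hrM
    by_contra hlt
    push Not at hlt
    have h2 : ¬ r ∣ 30 := fun hd => hrM (hd.trans h30)
    interval_cases r
    · exact absurd hr (by norm_num)
    · exact absurd hr (by norm_num)
    · exact h2 (by norm_num)
    · exact h2 (by norm_num)
    · exact absurd hr (by norm_num)
    · exact h2 (by norm_num)
    · exact absurd hr (by norm_num)
  have hval : ∀ r : ℕ, r.Prime → ¬ r ∣ M → padicValInt r (uF (-W.c₄) (-W.c₆) t) = 1 →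
      padicValInt r W'.Δ = 5 := by
    intro r hr hrM hv
    have := Fact.mk hr
    have hrΔ : ¬ (r : ℤ) ∣ W.Δ := fun hd => hrM (by exact_mod_cast hd.trans hΔM)
    have hpow : padicValInt r (uF (-W.c₄) (-W.c₆) t ^ 5) = 5 * padicValInt r (uF (-W.c₄) (-W.c₆) t) := by
      unfold padicValInt
      rw [Int.natAbs_pow, padicValNat.pow]
    rw [hΔ', padicValInt.mul hΔ (pow_ne_zero _ hh0), padicValInt.eq_zero_of_not_dvd hrΔ, hpow, hv]
  have hprod : W'.c₄ * W'.c₆ = uH (-W.c₄) (-W.c₆) t * uT (-W.c₄) (-W.c₆) t := by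
    rw [hc4, hc6]; ring
  refine ⟨W', hΔ'0, hss, ?_, ?_⟩
  · exact irreducible_three W' hΔ'0 hss r1 r2 hr1 hr2 (by have := hge r1 hr1 hr1M; omega)
      (by have := hge r2 hr2 hr2M; omega) hq1 hq2 (hval r1 hr1 hr1M hv1) (hval r2 hr2 hr2M hv2)
      (by rw [hprod]; exact hs1) (by rw [hprod]; exact hs2)
  · intro ℓ hℓ hg hg' _
    by_cases hℓM : ℓ ∣ M
    · have : W'.apOfModel ℓ = W.apOfModel ℓ := by
        unfold WeierstrassCurve.apOfModel
        rw [hred ℓ hℓ hℓM]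
      rw [this, sub_self]
      exact dvd_zero _
    · exact ap_congr W W' t hc4 hc6 ℓ hℓ (hge ℓ hℓ hℓM) hg hg'

end Fermat.Agent.S52
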