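import Mathlib
import Fermat.Prelude.Def_FLTPrelim_Modularity
import Fermat.Prelude.Def_FLTPrelim_ModularRep
import Fermat.Prelude.Def_GaloisRep_ComplexConjugation

/-!
# S52 (3-5 switch): definitions

Klein's icosahedral forms `kf` (degree 12), `kH` (20), `kT` (30): `kT^2 + kH^3 = 1728 kf^5`.
`kE x y : Y^2 = X^3 + 27 kH X + 54 kT`  (`c4 = - kH`, `c6 = - kT`, `Δ = - kf^5` up to the scaling of the short model).
`(kX x y, kY x y)` is a point of order 5 of `kE x y` (integer coefficients!).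
Binary icosahedral group: `actD e` (order 5), `actS e i5` (order 4), `e` a primitive 5th root of unity, `i5 = 1/5`.
The family: `v_t = v + t (kfy v, - kfx v)`.
All identities below have been checked by computer (exact arithmetic in `ℚ(ζ₅)[x,y]`).
-/

set_option autoImplicit false

namespace Fermat.Agent.S52

section forms
variable {R : Type*} [CommRing R]

def kf (x y : R) : R := x * y * (x ^ 10 + 11 * x ^ 5 * y ^ 5 - y ^ 10)

def kH (x y : R) : R :=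
  -(x ^ 20 + y ^ 20) + 228 * (x ^ 15 * y ^ 5 - x ^ 5 * y ^ 15) - 494 * x ^ 10 * y ^ 10

def kT (x y : R) : R :=
  (x ^ 30 + y ^ 30) + 522 * (x ^ 25 * y ^ 5 - x ^ 5 * y ^ 25)
    - 10005 * (x ^ 20 * y ^ 10 + x ^ 10 * y ^ 20)

/-- `∂ kf / ∂ x` -/
def kfx (x y : R) : R := 11 * x ^ 10 * y + 66 * x ^ 5 * y ^ 6 - y ^ 11

/-- `∂ kf / ∂ y` -/
def kfy (x y : R) : R := x ^ 11 + 66 * x ^ 6 * y ^ 5 - 11 * x * y ^ 10

def kX (x y : R) : R :=
  3 * (x ^ 10 + 12 * x ^ 8 * y ^ 2 - 12 * x ^ 7 * y ^ 3 + 24 * x ^ 6 * y ^ 4 + 30 * x ^ 5 * y ^ 5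
    + 60 * x ^ 4 * y ^ 6 + 36 * x ^ 3 * y ^ 7 + 24 * x ^ 2 * y ^ 8 + 12 * x * y ^ 9 + y ^ 10)

def kY (x y : R) : R :=
  108 * (x ^ 13 * y ^ 2 + x ^ 12 * y ^ 3 + 4 * x ^ 11 * y ^ 4 + 5 * x ^ 9 * y ^ 6 + 6 * x ^ 8 * y ^ 7
    + 21 * x ^ 7 * y ^ 8 + 29 * x ^ 6 * y ^ 9 + 25 * x ^ 5 * y ^ 10 + 15 * x ^ 4 * y ^ 11
    + 9 * x ^ 3 * y ^ 12 + 4 * x ^ 2 * y ^ 13 + x * y ^ 14)

/-- the member `v_t` of the pencil through `v = (x, y)` -/
def vt (x y t : R) : R × R := (x + t * kfy x y, y - t * kfx x y)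

/-- `Y^2 = X^3 + A X + B` -/
def short (A B : R) : WeierstrassCurve R := ⟨0, 0, 0, A, B⟩

def actD (e : R) (v : R × R) : R × R := (e ^ 3 * v.1, e ^ 2 * v.2)

/-- Klein's `T`: `(1/√5) [[-(e - e^4), e^2 - e^3], [e^2 - e^3, e - e^4]]`, `1/√5 = (1 + 2 (e + e^4)) / 5` -/
def actS (e i5 : R) (v : R × R) : R × R :=
  ((1 + 2 * (e + e ^ 4)) * i5 * (-(e - e ^ 4) * v.1 + (e ^ 2 - e ^ 3) * v.2),
   (1 + 2 * (e + e ^ 4)) * i5 * ((e ^ 2 - e ^ 3) * v.1 + (e - e ^ 4) * v.2))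

/-- action of a word in `D` (`true`) and `S` (`false`) -/
def wact (e i5 : R) : List Bool → R × R → R × R
  | [], v => v
  | true :: g, v => actD e (wact e i5 g v)
  | false :: g, v => actS e i5 (wact e i5 g v)

end forms

end Fermat.Agent.S52
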