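import Fermat.Agent.S52.UnivDefs

/-!
# S52: block interfaces (statements FROZEN; blueprint in the headers of the key files and in briefing `S52-BLUEPRINT`)

`c4 = - kH`, `c6 = - kT`, `Δ = - kf^5`.  The pencil `v_t = v + t (kfy v, - kfx v)` has UNIVERSAL invariants with INTEGER coefficients
(`UnivDefs.lean`): `kH v_t = uH (kH v) (kT v) t`, `kT v_t = uT (kH v) (kT v) t`, `kf v_t = kf v * uF (kH v) (kT v) t`.
So the switch curve has `c4' = - uH (-c4) (-c6) t`, `c6' = - uT (-c4) (-c6) t`, `Δ' = Δ * uF (-c4) (-c6) t ^ 5`, `t ∈ ℤ`.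
-/

set_option autoImplicit false

open WeierstrassCurve Polynomial

namespace Fermat.Agent.S52

/-- the quadratic residue behaviour of a prime whose Frobenius is complex conjugation -/
def GoodQR (r : ℕ) : Prop :=
  ¬ IsSquare (-1 : ZMod r) ∧ IsSquare (2 : ZMod r) ∧ IsSquare (3 : ZMod r)

end Fermat.Agent.S52
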