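import Fermat.Agent.S52.Univ

/-!
# [S52/REAL-A]  a REAL point `(x, y)` with `kH x y = -c4`, `kT x y = -c6`     (IVT only)

Notation `Z = z^5`, `a(Z) = - kH z 1`, `P(Z) = kT z 1`, `G(Z) = Z^2 + 11 Z - 1`.
 (K) `P^2 - a^3 = 1728 Z G^5`.   (R1) `a = 3125 Z^2 + G (..)`.   (R2) `P = -15625 (2 Z + 11) Z^3 + G (..)`.
-/

set_option autoImplicit false

namespace Fermat.Agent.S52

namespace RealA

def a (Z : ℝ) : ℝ := Z ^ 4 - 228 * Z ^ 3 + 494 * Z ^ 2 + 228 * Z + 1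
def P (Z : ℝ) : ℝ := Z ^ 6 + 522 * Z ^ 5 - 10005 * Z ^ 4 - 10005 * Z ^ 2 - 522 * Z + 1
def G (Z : ℝ) : ℝ := Z ^ 2 + 11 * Z - 1

theorem relK (Z : ℝ) : P Z ^ 2 - a Z ^ 3 = 1728 * Z * G Z ^ 5 := by unfold P a G; ring
theorem relR1 (Z : ℝ) : a Z = 3125 * Z ^ 2 + G Z * (Z ^ 2 - 239 * Z - 1) := by unfold a G; ring
theorem relR2 (Z : ℝ) : P Z = -15625 * (2 * Z + 11) * Z ^ 3
    + G Z * (Z ^ 4 + 511 * Z ^ 3 + 15625 * Z ^ 2 + 511 * Z - 1) := by unfold P G; ring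

theorem pow_pos_of_ne_zero' {x : ℝ} (h : x ≠ 0) : 0 < x ^ 2 := by positivity

theorem continuous_a : Continuous a := by unfold a; fun_prop
theorem continuous_P : Continuous P := by unfold P; fun_prop

theorem first_zero {p F : ℝ → ℝ} (hp : Continuous p) (hF : Continuous F) {α β : ℝ} (hαβ : α < β)
    (hpα : 0 < p α) (hpβ : p β < 0) (hFα : 0 < F α)
    (h : ∀ Z, α < Z → Z < β → p Z = 0 → F Z < 0) :
    ∃ Z, α < Z ∧ Z < β ∧ F Z = 0 ∧ 0 < p Z := by
  set S : Set ℝ := Set.Icc α β ∩ {Z | p Z ≤ 0} with hS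
  have hScl : IsClosed S := isClosed_Icc.inter (isClosed_le hp continuous_const)
  have hSne : S.Nonempty := ⟨β, ⟨hαβ.le, le_rfl⟩, hpβ.le⟩
  have hSbd : BddBelow S := ⟨α, fun Z hZ => hZ.1.1⟩
  obtain ⟨T, hTdef⟩ : ∃ T, T = sInf S := ⟨_, rfl⟩
  have hT : T ∈ S := by rw [hTdef]; exact hScl.csInf_mem hSne hSbd
  have hT2 : p T ≤ 0 := hT.2
  have hlt : ∀ Z, α ≤ Z → Z < T → 0 < p Z := by
    intro Z h1 h2
    by_contra hc
    push Not at hc
    have h3 : Z ∈ S := ⟨⟨h1, le_trans h2.le hT.1.2⟩, hc⟩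
    have h4 := csInf_le hSbd h3
    rw [← hTdef] at h4
    exact absurd h4 (not_le.mpr h2)
  have hαT : α < T := by
    rcases eq_or_lt_of_le hT.1.1 with h1 | h1
    · exfalso
      rw [← h1] at hT2
      exact absurd hT2 (not_le.mpr hpα)
    · exact h1
  have hpT : p T = 0 := by
    apply le_antisymm hT2
    by_contra hc
    push Not at hc
    obtain ⟨Z, hZ, hZ0⟩ := intermediate_value_Ioo' hαT.le hp.continuousOn ⟨hc, hpα⟩
    have := hlt Z hZ.1.le hZ.2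
    linarith
  have hTβ : T < β := by
    rcases eq_or_lt_of_le hT.1.2 with h1 | h1
    · exfalso
      rw [h1] at hpT
      linarith
    · exact h1
  have hFT := h T hαT hTβ hpT
  obtain ⟨Z, hZ, hZ0⟩ := intermediate_value_Ioo' hαT.le hF.continuousOn ⟨hFT, hFα⟩
  exact ⟨Z, hZ.1, lt_trans hZ.2 hTβ, hZ0, hlt Z hZ.1.le hZ.2⟩

theorem seg (c4 c6 : ℝ) (h6 : c6 ≠ 0) (Z0 : ℝ) (hG : G Z0 = 0) (hP : P Z0 < 0) (ha : 0 < a Z0)
    (hD : c4 ^ 3 - c6 ^ 2 ≠ 0)
    (hneg : ∀ t, 0 < t → t < 1 → (c4 ^ 3 - c6 ^ 2) * ((t * Z0) * G (t * Z0) ^ 5) < 0) :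
    ∃ Z, c4 ^ 3 * P Z ^ 2 = c6 ^ 2 * a Z ^ 3 ∧ c6 * P Z < 0 := by
  set F' : ℝ → ℝ := fun Z => (c4 ^ 3 - c6 ^ 2) * (c4 ^ 3 * P Z ^ 2 - c6 ^ 2 * a Z ^ 3) with hF'
  have hF'c : Continuous F' := by
    have h1 := continuous_a
    have h2 := continuous_P
    rw [hF']
    fun_prop
  have hP0 : P 0 = 1 := by unfold P; norm_num
  have ha0 : a 0 = 1 := by unfold a; norm_num
  have hD2 : 0 < (c4 ^ 3 - c6 ^ 2) ^ 2 := by positivity
  have hF0 : 0 < F' 0 := by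
    simp only [hF', hP0, ha0]
    nlinarith
  have hFZ0 : 0 < F' Z0 := by
    have h1 := relK Z0
    rw [hG] at h1
    have h2 : P Z0 ^ 2 = a Z0 ^ 3 := by linarith
    simp only [hF', h2]
    have h3 : 0 < a Z0 ^ 3 := by positivity
    have : (c4 ^ 3 - c6 ^ 2) * (c4 ^ 3 * a Z0 ^ 3 - c6 ^ 2 * a Z0 ^ 3)
        = (c4 ^ 3 - c6 ^ 2) ^ 2 * a Z0 ^ 3 := by ring
    rw [this]
    positivity
  have hzero : ∀ t, 0 < t → t < 1 → P (t * Z0) = 0 → F' (t * Z0) < 0 := by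
    intro t h0 h1 hPt
    have h2 := relK (t * Z0)
    rw [hPt] at h2
    have h3 := hneg t h0 h1
    have h4 : 0 < c6 ^ 2 := by positivity
    simp only [hF', hPt]
    have : (c4 ^ 3 - c6 ^ 2) * (c4 ^ 3 * 0 ^ 2 - c6 ^ 2 * a (t * Z0) ^ 3)
        = c6 ^ 2 * 1728 * ((c4 ^ 3 - c6 ^ 2) * ((t * Z0) * G (t * Z0) ^ 5)) := by
      have h5 : a (t * Z0) ^ 3 = - (1728 * (t * Z0) * G (t * Z0) ^ 5) := by linarith
      rw [h5]; ring
    rw [this]
    nlinarith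
  have hfin : ∀ Z, F' Z = 0 → 0 < -c6 * P Z → c4 ^ 3 * P Z ^ 2 = c6 ^ 2 * a Z ^ 3 ∧ c6 * P Z < 0 := by
    intro Z h1 h2
    constructor
    · have := (mul_eq_zero.mp h1).resolve_left hD
      linarith
    · linarith
  rcases lt_or_gt_of_ne h6 with hc | hc
  · obtain ⟨t, h0, h1, hF, hp⟩ := first_zero (p := fun t => -c6 * P (t * Z0)) (F := fun t => F' (t * Z0))
      (by have := continuous_P; fun_prop) (by fun_prop) (zero_lt_one)
      (by simp only [zero_mul, hP0]; linarith) (by simp only [one_mul]; nlinarith)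
      (by simpa using hF0)
      (by
        intro t h0 h1 hpt
        apply hzero t h0 h1
        have := mul_eq_zero.mp hpt
        rcases this with h | h
        · exfalso; linarith
        · exact h)
    exact ⟨t * Z0, hfin _ hF hp⟩
  · obtain ⟨t, h0, h1, hF, hp⟩ := first_zero (p := fun t => -c6 * P ((1 - t) * Z0))
      (F := fun t => F' ((1 - t) * Z0))
      (by have := continuous_P; fun_prop) (by fun_prop) (zero_lt_one)
      (by simp only [sub_zero, one_mul]; nlinarith) (by simp only [sub_self, zero_mul, hP0]; linarith)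
      (by simpa using hFZ0)
      (by
        intro t h0 h1 hpt
        apply hzero (1 - t) (by linarith) (by linarith)
        have := mul_eq_zero.mp hpt
        rcases this with h | h
        · exfalso; linarith
        · exact h)
    exact ⟨(1 - t) * Z0, hfin _ hF hp⟩

theorem exists_Z (c4 c6 : ℝ) (h6 : c6 ≠ 0) (hD : c4 ^ 3 - c6 ^ 2 ≠ 0) :
    ∃ Z, c4 ^ 3 * P Z ^ 2 = c6 ^ 2 * a Z ^ 3 ∧ c6 * P Z < 0 := by
  obtain ⟨s, hs⟩ : ∃ s : ℝ, s = Real.sqrt 5 := ⟨_, rfl⟩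
  have hs2 : s ^ 2 = 5 := by rw [hs]; exact Real.sq_sqrt (by norm_num)
  have hs0 : 0 < s := by rw [hs]; exact Real.sqrt_pos.mpr (by norm_num)
  have hs1 : 11 < 5 * s := by nlinarith
  rcases lt_or_gt_of_ne hD with hDn | hDp
  · -- D < 0 : Z₋
    have hZ : (-11 - 5 * s) / 2 < 0 := by linarith
    have hG : G ((-11 - 5 * s) / 2) = 0 := by
      unfold G
      nlinarith
    apply seg c4 c6 h6 ((-11 - 5 * s) / 2) hG _ _ hD
    · intro t h0 h1
      have hZt : t * ((-11 - 5 * s) / 2) < 0 := mul_neg_of_pos_of_neg h0 hZ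
      have hGt : G (t * ((-11 - 5 * s) / 2)) < 0 := by
        have h2 : G (t * ((-11 - 5 * s) / 2)) = G (t * ((-11 - 5 * s) / 2)) - G ((-11 - 5 * s) / 2) := by
          rw [hG, sub_zero]
        have h3 : G (t * ((-11 - 5 * s) / 2)) - G ((-11 - 5 * s) / 2)
            = (t * ((-11 - 5 * s) / 2) - (-11 - 5 * s) / 2)
              * (t * ((-11 - 5 * s) / 2) + (-11 - 5 * s) / 2 + 11) := by
          unfold G; ring
        rw [h2, h3]
        apply mul_neg_of_pos_of_neg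
        · nlinarith
        · nlinarith
      have hG5 : G (t * ((-11 - 5 * s) / 2)) ^ 5 < 0 := Odd.pow_neg (by decide) hGt
      have h4 : 0 < t * ((-11 - 5 * s) / 2) * G (t * ((-11 - 5 * s) / 2)) ^ 5 :=
        mul_pos_of_neg_of_neg hZt hG5
      exact mul_neg_of_neg_of_pos hDn h4
    · rw [relR2, hG, zero_mul, add_zero]
      have h3 : ((-11 - 5 * s) / 2) ^ 3 < 0 := Odd.pow_neg (by decide) hZ
      have h4 : 2 * ((-11 - 5 * s) / 2) + 11 = - (5 * s) := by ring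
      rw [h4]
      nlinarith
    · rw [relR1, hG, zero_mul, add_zero]
      have : 0 < ((-11 - 5 * s) / 2) ^ 2 := pow_pos_of_ne_zero' hZ.ne
      linarith
  · -- D > 0 : Z₊
    have hZ : 0 < (-11 + 5 * s) / 2 := by linarith
    have hG : G ((-11 + 5 * s) / 2) = 0 := by
      unfold G
      nlinarith
    apply seg c4 c6 h6 ((-11 + 5 * s) / 2) hG _ _ hD
    · intro t h0 h1
      have hZt : 0 < t * ((-11 + 5 * s) / 2) := mul_pos h0 hZ
      have hGt : G (t * ((-11 + 5 * s) / 2)) < 0 := by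
        have h2 : G (t * ((-11 + 5 * s) / 2)) = G (t * ((-11 + 5 * s) / 2)) - G ((-11 + 5 * s) / 2) := by
          rw [hG, sub_zero]
        have h3 : G (t * ((-11 + 5 * s) / 2)) - G ((-11 + 5 * s) / 2)
            = (t * ((-11 + 5 * s) / 2) - (-11 + 5 * s) / 2)
              * (t * ((-11 + 5 * s) / 2) + (-11 + 5 * s) / 2 + 11) := by
          unfold G; ring
        rw [h2, h3]
        apply mul_neg_of_neg_of_pos
        · nlinarith
        · nlinarith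
      have hG5 : G (t * ((-11 + 5 * s) / 2)) ^ 5 < 0 := Odd.pow_neg (by decide) hGt
      have h4 : t * ((-11 + 5 * s) / 2) * G (t * ((-11 + 5 * s) / 2)) ^ 5 < 0 :=
        mul_neg_of_pos_of_neg hZt hG5
      exact mul_neg_of_pos_of_neg hDp h4
    · rw [relR2, hG, zero_mul, add_zero]
      have h3 : 0 < ((-11 + 5 * s) / 2) ^ 3 := by positivity
      have h4 : 2 * ((-11 + 5 * s) / 2) + 11 = 5 * s := by ring
      rw [h4]
      nlinarith
    · rw [relR1, hG, zero_mul, add_zero]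
      have : 0 < ((-11 + 5 * s) / 2) ^ 2 := by positivity
      linarith

/-- odd roots -/
theorem exists_fifth_root (Z : ℝ) : ∃ z : ℝ, z ^ 5 = Z := by
  rcases le_or_gt 0 Z with h | h
  · exact ⟨Z ^ ((5 : ℕ) : ℝ)⁻¹, Real.rpow_inv_natCast_pow h (by norm_num)⟩
  · refine ⟨-((-Z) ^ ((5 : ℕ) : ℝ)⁻¹), ?_⟩
    rw [Odd.neg_pow (by decide), Real.rpow_inv_natCast_pow (by linarith) (by norm_num), neg_neg]

end RealA

open RealA in
theorem exists_real_point (c4 c6 : ℝ) (h6 : c6 ≠ 0) (hD : c4 ^ 3 - c6 ^ 2 ≠ 0) :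
    ∃ x y : ℝ, kH x y = -c4 ∧ kT x y = -c6 := by
  obtain ⟨Z, hF, hs⟩ := exists_Z c4 c6 h6 hD
  obtain ⟨z, hz⟩ := exists_fifth_root Z
  have hP0 : P Z ≠ 0 := by
    intro h
    rw [h, mul_zero] at hs
    exact lt_irrefl _ hs
  have hw : 0 < c6 / (-P Z) := by
    have h1 : c6 / (-P Z) = (-(c6 * P Z)) / (P Z ^ 2) := by
      field_simp
    rw [h1]
    apply div_pos (by linarith) (by positivity)
  obtain ⟨y, hy⟩ : ∃ y : ℝ, y ^ 30 = c6 / (-P Z) :=
    ⟨(c6 / (-P Z)) ^ ((30 : ℕ) : ℝ)⁻¹, Real.rpow_inv_natCast_pow hw.le (by norm_num)⟩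
  refine ⟨z * y, y, ?_, ?_⟩
  · have h1 : kH (z * y) y = -(y ^ 20 * a Z) := by
      unfold kH a
      rw [← hz]
      ring
    rw [h1]
    congr 1
    have h2 : (y ^ 20 * a Z) ^ 3 = c4 ^ 3 := by
      have h3 : (y ^ 20 * a Z) ^ 3 = (y ^ 30) ^ 2 * a Z ^ 3 := by ring
      rw [h3, hy]
      have h4 : (c6 / (-P Z)) ^ 2 * a Z ^ 3 = (c6 ^ 2 * a Z ^ 3) / P Z ^ 2 := by
        field_simp
      rw [h4, ← hF]
      field_simp
    exact (Odd.strictMono_pow (by decide : Odd 3)).injective h2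
  · have h1 : kT (z * y) y = y ^ 30 * P Z := by
      unfold kT P
      rw [← hz]
      ring
    rw [h1, hy]
    field_simp

end Fermat.Agent.S52
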