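import Fermat.Agent.S52.RealA
import Fermat.Agent.S52.If

/-!
# [S52/REAL-B]  two real cusps of the pencil with opposite signs of `c4' c6'`      (~400 lines)

`(x0, y0)` from `exists_real_point`, `H0 = kH x0 y0 = -c4`, `T0 = kT x0 y0 = -c6`, `f0 = kf x0 y0 ≠ 0` (`klein`: `1728 f0^5 = T0^2 + H0^3 = c6^2 - c4^3 ≠ 0`), `p = kfx x0 y0`, `q = kfy x0 y0`, `x0 p + y0 q = 12 f0` (`kf_euler`), so `(p,q) ≠ 0`.
`v_t = (x0 + t q, y0 - t p)`.  In the ring `ℝ[X]` (`x = C x0`, `y = C y0`, `m = X`): `kf_vt`, `kH_vt`, `kT_vt` + `map_uF`.. give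
 `(polF c4 c6).map (Int.castRingHom ℝ) * C f0 = kf (C x0 + X * C q) (C y0 - X * C p)`, and pointwise `aeval τ (polHT c4 c6) = kH v_τ * kT v_τ`, `aeval τ (polF c4 c6) * f0 = kf v_τ`.
SIMPLE ROOT criterion: if `P = (X - C τ) * Q` in `ℝ[X]` then `P.derivative.eval τ = Q.eval τ`.
TYPE A (`kH kT < 0`): if `q ≠ 0`: `τ = -x0/q`, `v_τ = (0, y1)`, `y1 = y0 + x0 p/q = 12 f0/q ≠ 0`; `kH (0,y1) * kT (0,y1) = - y1^50 < 0`; `kf (x_t, y_t) = x_t * (y_t * (x_t^10 + 11 x_t^5 y_t^5 - y_t^10))`, `x_t = q (t - τ)`, cofactor at `τ`: `- y1^11 ≠ 0`.  If `q = 0`: `p ≠ 0`, `τ = y0/p`, `v_τ = (x1, 0)`, `x1 = 12 f0/p`; `kH kT = - x1^50`; `y_t = -p (t - τ)`, cofactor `x1^11`.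
TYPE B (`kH kT > 0`): `Z± = (-11 ± 5√5)/2`, `ρ± ∈ ℝ` with `ρ±^5 = Z±` (odd root), `ρ₊ ≠ ρ₋`.  `q + ρ p ≠ 0` for `ρ = ρ₊` or `ρ = ρ₋` (else `(ρ₊ - ρ₋) p = 0`, `p = q = 0`).  `τ = (ρ y0 - x0)/(q + ρ p)`: `x_τ = ρ y_τ`, `y1 := y_τ ≠ 0` (else `v_τ = 0`, but `x_τ p + y_τ q = 12 f0`).
 `kH (ρ y, y) = - y^20 a(Z) = -3125 Z^2 y^20`, `kT (ρ y, y) = y^30 P(Z) = -15625 (2Z+11) Z^3 y^30` (R1, R2 of `RealA.lean`; `G(Z) = 0`), `(2 Z± + 11) Z±^3 = (± 5√5) Z±^3 > 0`: product `> 0`.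
 `kf (x,y) = (x - ρ y) * [(x^4 + x^3 ρ y + x^2 ρ^2 y^2 + x ρ^3 y^3 + ρ^4 y^4) * x * y * (x^5 - Z' y^5)]` (`Z'` the other root: `Z + Z' = -11`, `Z Z' = -1`), `x_t - ρ y_t = (q + ρ p)(t - τ)`, cofactor at `τ`: `5 ρ^4 y1^4 * ρ y1^2 * (Z - Z') y1^5 ≠ 0`.
-/

set_option autoImplicit false

open Polynomial

namespace Fermat.Agent.S52

/-- `uF (-c4) (-c6) m` as a polynomial in `m` -/
noncomputable def polF (c4 c6 : ℤ) : ℤ[X] := uF (C (-c4)) (C (-c6)) X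

/-- `c4' c6' = uH uT` as a polynomial in `m` -/
noncomputable def polHT (c4 c6 : ℤ) : ℤ[X] := uH (C (-c4)) (C (-c6)) X * uT (C (-c4)) (C (-c6)) X

theorem eval_polF (c4 c6 t : ℤ) : (polF c4 c6).eval t = uF (-c4) (-c6) t := by
  have := map_uF (evalRingHom t) (C (-c4)) (C (-c6)) X
  simpa [polF] using this

theorem eval_polHT (c4 c6 t : ℤ) : (polHT c4 c6).eval t = uH (-c4) (-c6) t * uT (-c4) (-c6) t := by
  have h1 := map_uH (evalRingHom t) (C (-c4)) (C (-c6)) X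
  have h2 := map_uT (evalRingHom t) (C (-c4)) (C (-c6)) X
  simp only [coe_evalRingHom, eval_C, eval_X] at h1 h2
  rw [polHT, eval_mul, h1, h2]

theorem aeval_polF (c4 c6 : ℤ) (t : ℝ) : aeval t (polF c4 c6) = uF (-(c4 : ℝ)) (-(c6 : ℝ)) t := by
  have := map_uF ((aeval t : ℤ[X] →ₐ[ℤ] ℝ) : ℤ[X] →+* ℝ) (C (-c4)) (C (-c6)) X
  simpa [polF] using this

theorem aeval_polHT (c4 c6 : ℤ) (t : ℝ) :
    aeval t (polHT c4 c6) = uH (-(c4 : ℝ)) (-(c6 : ℝ)) t * uT (-(c4 : ℝ)) (-(c6 : ℝ)) t := by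
  have h1 := map_uH ((aeval t : ℤ[X] →ₐ[ℤ] ℝ) : ℤ[X] →+* ℝ) (C (-c4)) (C (-c6)) X
  have h2 := map_uT ((aeval t : ℤ[X] →ₐ[ℤ] ℝ) : ℤ[X] →+* ℝ) (C (-c4)) (C (-c6)) X
  have h1' : aeval t (uH (C (-c4)) (C (-c6)) X) = uH (-(c4 : ℝ)) (-(c6 : ℝ)) t := by simpa using h1
  have h2' : aeval t (uT (C (-c4)) (C (-c6)) X) = uT (-(c4 : ℝ)) (-(c6 : ℝ)) t := by simpa using h2
  rw [polHT, map_mul, h1', h2']

namespace RealB

/-- simple root criterion -/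
theorem simple_root (Q : ℝ[X]) (f0 lam τ : ℝ) (R : ℝ → ℝ) (hR : DifferentiableAt ℝ R τ)
    (h : ∀ t, f0 * Q.eval t = (lam * (t - τ)) * R t) (hlam : lam ≠ 0) (hRτ : R τ ≠ 0) :
    Q.derivative.eval τ ≠ 0 := by
  have h1 : HasDerivAt (fun t => f0 * Q.eval t) (f0 * Q.derivative.eval τ) τ :=
    (Q.hasDerivAt τ).const_mul f0
  have h2 : HasDerivAt (fun t : ℝ => lam * (t - τ)) (lam * 1) τ :=
    ((hasDerivAt_id τ).sub_const τ).const_mul lam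
  have h3 := h2.mul hR.hasDerivAt
  have h4 : (fun t => f0 * Q.eval t) = (fun t : ℝ => lam * (t - τ)) * R := by
    funext t
    exact h t
  rw [h4] at h1
  have h5 := h1.unique h3
  intro h0
  rw [h0, mul_zero, sub_self, mul_zero, zero_mul, add_zero, mul_one] at h5
  exact (mul_ne_zero hlam hRτ) h5.symm

/-- the data of the pencil through a real point -/
structure Dat (c4 c6 : ℤ) where
  x0 : ℝ
  y0 : ℝ
  hH : kH x0 y0 = -(c4 : ℝ)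
  hT : kT x0 y0 = -(c6 : ℝ)
  hf : kf x0 y0 ≠ 0

variable {c4 c6 : ℤ} (d : Dat c4 c6)

theorem Dat.kf_eq (t : ℝ) : kf d.x0 d.y0 * aeval t (polF c4 c6)
    = kf (d.x0 + t * kfy d.x0 d.y0) (d.y0 - t * kfx d.x0 d.y0) := by
  have := kf_vt d.x0 d.y0 t
  rw [d.hH, d.hT] at this
  rw [aeval_polF, ← this]
  rfl

theorem Dat.HT_eq (t : ℝ) : aeval t (polHT c4 c6)
    = kH (d.x0 + t * kfy d.x0 d.y0) (d.y0 - t * kfx d.x0 d.y0)
      * kT (d.x0 + t * kfy d.x0 d.y0) (d.y0 - t * kfx d.x0 d.y0) := by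
  have h1 := kH_vt d.x0 d.y0 t
  have h2 := kT_vt d.x0 d.y0 t
  rw [d.hH, d.hT] at h1 h2
  rw [aeval_polHT, ← h1, ← h2]
  rfl

theorem Dat.cusp (lam τ : ℝ) (R : ℝ → ℝ) (hR : DifferentiableAt ℝ R τ)
    (h : ∀ t, kf (d.x0 + t * kfy d.x0 d.y0) (d.y0 - t * kfx d.x0 d.y0) = (lam * (t - τ)) * R t)
    (hlam : lam ≠ 0) (hRτ : R τ ≠ 0) :
    aeval τ (polF c4 c6) = 0 ∧ aeval τ (derivative (polF c4 c6)) ≠ 0 := by
  constructor
  · have h1 := d.kf_eq τ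
    rw [h τ, sub_self, mul_zero, zero_mul] at h1
    exact (mul_eq_zero.mp h1).resolve_left d.hf
  · have h1 := simple_root ((polF c4 c6).map (algebraMap ℤ ℝ)) (kf d.x0 d.y0) lam τ R hR
      (fun t => by rw [eval_map_algebraMap, d.kf_eq t, h t]) hlam hRτ
    rwa [derivative_map, eval_map_algebraMap] at h1

theorem Dat.euler : d.x0 * kfx d.x0 d.y0 + d.y0 * kfy d.x0 d.y0 ≠ 0 := by
  rw [kf_euler]
  exact mul_ne_zero (by norm_num) d.hf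

include d in
theorem Dat.typeA : ∃ τ : ℝ, aeval τ (polF c4 c6) = 0 ∧ aeval τ (derivative (polF c4 c6)) ≠ 0 ∧
    aeval τ (polHT c4 c6) < 0 := by
  obtain ⟨p, hp⟩ : ∃ p, p = kfx d.x0 d.y0 := ⟨_, rfl⟩
  obtain ⟨q, hq⟩ : ∃ q, q = kfy d.x0 d.y0 := ⟨_, rfl⟩
  have he := d.euler
  have hc := d.cusp
  have hHT := d.HT_eq
  rw [← hp, ← hq] at he
  simp only [← hp, ← hq] at hc hHT
  by_cases hq0 : q = 0
  · have hp0 : p ≠ 0 := by
      rintro rfl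
      apply he
      rw [hq0]; ring
    have hx0 : d.x0 ≠ 0 := by
      intro h
      apply he
      rw [hq0, h]; ring
    have hy : d.y0 - d.y0 / p * p = 0 := by field_simp; ring
    obtain ⟨h1, h2⟩ := hc (-p) (d.y0 / p)
      (fun t => (d.x0 + t * q) * ((d.x0 + t * q) ^ 10 + 11 * (d.x0 + t * q) ^ 5 * (d.y0 - t * p) ^ 5
        - (d.y0 - t * p) ^ 10)) (by fun_prop)
      (by
        intro t
        unfold kf
        field_simp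
        ring) (neg_ne_zero.mpr hp0)
      (by
        simp only [hy, hq0]
        simp only [mul_zero, add_zero]
        have : d.x0 * (d.x0 ^ 10 + 11 * d.x0 ^ 5 * 0 ^ 5 - 0 ^ 10) = d.x0 ^ 11 := by ring
        rw [this]
        exact pow_ne_zero _ hx0)
    refine ⟨_, h1, h2, ?_⟩
    rw [hHT, hy, hq0]
    unfold kH kT
    have h50 : 0 < d.x0 ^ 50 := by
      have : d.x0 ^ 50 = (d.x0 ^ 25) ^ 2 := by ring
      rw [this]
      have := pow_ne_zero 25 hx0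
      positivity
    nlinarith
  · have hx : d.x0 + -d.x0 / q * q = 0 := by field_simp; ring
    obtain ⟨y1, hy1⟩ : ∃ y1, y1 = d.y0 - -d.x0 / q * p := ⟨_, rfl⟩
    have hy10 : y1 ≠ 0 := by
      intro h
      apply he
      have : q * y1 = d.x0 * p + d.y0 * q := by
        rw [hy1]; field_simp; ring
      rw [← this, h, mul_zero]
    obtain ⟨h1, h2⟩ := hc q (-d.x0 / q)
      (fun t => (d.y0 - t * p) * ((d.x0 + t * q) ^ 10 + 11 * (d.x0 + t * q) ^ 5 * (d.y0 - t * p) ^ 5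
        - (d.y0 - t * p) ^ 10)) (by fun_prop)
      (by
        intro t
        unfold kf
        field_simp
        ring) hq0
      (by
        simp only [hx, ← hy1]
        have : y1 * (0 ^ 10 + 11 * 0 ^ 5 * y1 ^ 5 - y1 ^ 10) = - y1 ^ 11 := by ring
        rw [this]
        exact neg_ne_zero.mpr (pow_ne_zero _ hy10))
    refine ⟨_, h1, h2, ?_⟩
    rw [hHT, hx, ← hy1]
    unfold kH kT
    have h50 : 0 < y1 ^ 50 := by
      have : y1 ^ 50 = (y1 ^ 25) ^ 2 := by ring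
      rw [this]
      have := pow_ne_zero 25 hy10
      positivity
    nlinarith

theorem Dat.typeB_aux (Z Z' ρ : ℝ) (hρ : ρ ^ 5 = Z) (hsum : Z + Z' = -11) (hprod : Z * Z' = -1)
    (hne : Z ≠ Z') (hpos : 0 < Z * (2 * Z + 11)) (hl : kfy d.x0 d.y0 + ρ * kfx d.x0 d.y0 ≠ 0) :
    ∃ τ : ℝ, aeval τ (polF c4 c6) = 0 ∧ aeval τ (derivative (polF c4 c6)) ≠ 0 ∧
    0 < aeval τ (polHT c4 c6) := by
  obtain ⟨p, hp⟩ : ∃ p, p = kfx d.x0 d.y0 := ⟨_, rfl⟩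
  obtain ⟨q, hq⟩ : ∃ q, q = kfy d.x0 d.y0 := ⟨_, rfl⟩
  have he := d.euler
  have hc := d.cusp
  have hHT := d.HT_eq
  rw [← hp, ← hq] at he hl
  simp only [← hp, ← hq] at hc hHT
  have hZ0 : Z ≠ 0 := by
    rintro rfl
    rw [zero_mul] at hprod
    norm_num at hprod
  obtain ⟨τ, hτ⟩ : ∃ τ, τ = (ρ * d.y0 - d.x0) / (q + ρ * p) := ⟨_, rfl⟩
  obtain ⟨y1, hy1⟩ : ∃ y1, y1 = d.y0 - τ * p := ⟨_, rfl⟩
  have hx1 : d.x0 + τ * q = ρ * y1 := by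
    rw [hy1, hτ]; field_simp; ring
  have hy10 : y1 ≠ 0 := by
    intro h
    apply he
    have : d.x0 * p + d.y0 * q = (d.x0 + τ * q) * p + (d.y0 - τ * p) * q := by ring
    rw [this, hx1, ← hy1, h]; ring
  obtain ⟨h1, h2⟩ := hc (q + ρ * p) τ
    (fun t => ((d.x0 + t * q) ^ 4 + (d.x0 + t * q) ^ 3 * (ρ * (d.y0 - t * p))
        + (d.x0 + t * q) ^ 2 * (ρ * (d.y0 - t * p)) ^ 2 + (d.x0 + t * q) * (ρ * (d.y0 - t * p)) ^ 3
        + (ρ * (d.y0 - t * p)) ^ 4) * (d.x0 + t * q) * (d.y0 - t * p)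
        * ((d.x0 + t * q) ^ 5 - Z' * (d.y0 - t * p) ^ 5)) (by fun_prop)
    (by
      intro t
      have hlin : (q + ρ * p) * (t - τ) = (d.x0 + t * q) - ρ * (d.y0 - t * p) := by
        rw [hτ]; field_simp; ring
      rw [hlin]
      obtain ⟨x, hx⟩ : ∃ x, x = d.x0 + t * q := ⟨_, rfl⟩
      obtain ⟨y, hy⟩ : ∃ y, y = d.y0 - t * p := ⟨_, rfl⟩
      rw [← hx, ← hy]
      unfold kf
      have e1 : (x - ρ * y) * ((x ^ 4 + x ^ 3 * (ρ * y) + x ^ 2 * (ρ * y) ^ 2 + x * (ρ * y) ^ 3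
          + (ρ * y) ^ 4) * x * y * (x ^ 5 - Z' * y ^ 5))
          = x * y * ((x ^ 5 - ρ ^ 5 * y ^ 5) * (x ^ 5 - Z' * y ^ 5)) := by ring
      rw [e1, hρ]
      have e2 : (x ^ 5 - Z * y ^ 5) * (x ^ 5 - Z' * y ^ 5)
          = x ^ 10 - (Z + Z') * x ^ 5 * y ^ 5 + (Z * Z') * y ^ 10 := by ring
      rw [e2, hsum, hprod]
      ring) hl
    (by
      simp only [hx1, ← hy1]
      have : ((ρ * y1) ^ 4 + (ρ * y1) ^ 3 * (ρ * y1) + (ρ * y1) ^ 2 * (ρ * y1) ^ 2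
          + ρ * y1 * (ρ * y1) ^ 3 + (ρ * y1) ^ 4) * (ρ * y1) * y1 * ((ρ * y1) ^ 5 - Z' * y1 ^ 5)
          = 5 * ρ ^ 5 * (ρ ^ 5 - Z') * y1 ^ 11 := by ring
      rw [this, hρ]
      exact mul_ne_zero (mul_ne_zero (mul_ne_zero (by norm_num) hZ0) (sub_ne_zero.mpr hne))
        (pow_ne_zero _ hy10))
  refine ⟨τ, h1, h2, ?_⟩
  rw [hHT, hx1, ← hy1]
  have hG : RealA.G Z = 0 := by
    unfold RealA.G
    have : Z ^ 2 + 11 * Z - 1 = Z ^ 2 - (Z + Z') * Z + Z * Z' := by rw [hsum, hprod]; ring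
    rw [this]; ring
  have hH : kH (ρ * y1) y1 = -(y1 ^ 20 * RealA.a Z) := by
    unfold kH RealA.a
    rw [← hρ]; ring
  have hT : kT (ρ * y1) y1 = y1 ^ 30 * RealA.P Z := by
    unfold kT RealA.P
    rw [← hρ]; ring
  rw [hH, hT, RealA.relR1, RealA.relR2, hG, zero_mul, zero_mul, add_zero, add_zero]
  have h50 : 0 < y1 ^ 50 := by
    have : y1 ^ 50 = (y1 ^ 25) ^ 2 := by ring
    rw [this]
    have := pow_ne_zero 25 hy10
    positivity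
  have h4 : 0 < Z ^ 4 := by positivity
  have : -(y1 ^ 20 * (3125 * Z ^ 2)) * (y1 ^ 30 * (-15625 * (2 * Z + 11) * Z ^ 3))
      = 48828125 * (y1 ^ 50 * (Z ^ 4 * (Z * (2 * Z + 11)))) := by ring
  rw [this]
  positivity

include d in
theorem Dat.typeB : ∃ τ : ℝ, aeval τ (polF c4 c6) = 0 ∧ aeval τ (derivative (polF c4 c6)) ≠ 0 ∧
    0 < aeval τ (polHT c4 c6) := by
  obtain ⟨s, hs⟩ : ∃ s : ℝ, s = Real.sqrt 5 := ⟨_, rfl⟩
  have hs2 : s ^ 2 = 5 := by rw [hs]; exact Real.sq_sqrt (by norm_num)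
  have hs0 : 0 < s := by rw [hs]; exact Real.sqrt_pos.mpr (by norm_num)
  have hs1 : 11 < 5 * s := by nlinarith
  obtain ⟨ρp, hρp⟩ := RealA.exists_fifth_root ((-11 + 5 * s) / 2)
  obtain ⟨ρm, hρm⟩ := RealA.exists_fifth_root ((-11 - 5 * s) / 2)
  have hprod : (-11 + 5 * s) / 2 * ((-11 - 5 * s) / 2) = -1 := by nlinarith
  have hne : (-11 + 5 * s) / 2 ≠ (-11 - 5 * s) / 2 := by
    intro h
    linarith
  by_cases h1 : kfy d.x0 d.y0 + ρp * kfx d.x0 d.y0 = 0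
  · have h2 : kfy d.x0 d.y0 + ρm * kfx d.x0 d.y0 ≠ 0 := by
      intro h2
      have h3 : (ρp - ρm) * kfx d.x0 d.y0 = 0 := by linarith
      have h4 : ρp ≠ ρm := by
        rintro rfl
        exact hne (hρp.symm.trans hρm)
      have h5 : kfx d.x0 d.y0 = 0 := (mul_eq_zero.mp h3).resolve_left (sub_ne_zero.mpr h4)
      have h6 : kfy d.x0 d.y0 = 0 := by rw [h5, mul_zero, add_zero] at h1; exact h1
      apply d.euler
      rw [h5, h6]; ring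
    exact d.typeB_aux _ _ ρm hρm (by ring) (by rw [mul_comm]; exact hprod) hne.symm
      (by
        have e : 2 * ((-11 - 5 * s) / 2) + 11 = -(5 * s) := by ring
        rw [e]
        nlinarith) h2
  · exact d.typeB_aux _ _ ρp hρp (by ring) hprod hne
      (by
        have e : 2 * ((-11 + 5 * s) / 2) + 11 = 5 * s := by ring
        rw [e]
        nlinarith) h1

end RealB

theorem exists_real_cusps (c4 c6 : ℤ) (h6 : c6 ≠ 0) (hΔ : c4 ^ 3 - c6 ^ 2 ≠ 0) :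
    ∃ τA τB : ℝ,
      aeval τA (polF c4 c6) = 0 ∧ aeval τA (derivative (polF c4 c6)) ≠ 0 ∧ aeval τA (polHT c4 c6) < 0 ∧
      aeval τB (polF c4 c6) = 0 ∧ aeval τB (derivative (polF c4 c6)) ≠ 0 ∧ 0 < aeval τB (polHT c4 c6) := by
  have h6' : (c6 : ℝ) ≠ 0 := by exact_mod_cast h6
  have hΔ' : (c4 : ℝ) ^ 3 - (c6 : ℝ) ^ 2 ≠ 0 := by exact_mod_cast hΔ
  obtain ⟨x0, y0, hH, hT⟩ := exists_real_point (c4 : ℝ) (c6 : ℝ) h6' hΔ'
  have hf : kf x0 y0 ≠ 0 := by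
    intro h
    have h1 := klein x0 y0
    rw [hH, hT, h] at h1
    apply hΔ'
    nlinarith
  obtain ⟨τA, a1, a2, a3⟩ := (RealB.Dat.mk x0 y0 hH hT hf : RealB.Dat c4 c6).typeA
  obtain ⟨τB, b1, b2, b3⟩ := (RealB.Dat.mk x0 y0 hH hT hf : RealB.Dat c4 c6).typeB
  exact ⟨τA, τB, a1, a2, a3, b1, b2, b3⟩

end Fermat.Agent.S52
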