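import Fermat.Agent.S52.UnivDefs

set_option autoImplicit false
set_option maxRecDepth 100000

namespace Fermat.Agent.S52

variable {R : Type*} [CommRing R]

set_option maxHeartbeats 0 in
/-- [S52/F-REL] -/
theorem uRel (H T m : R) : uT H T m ^ 2 + uH H T m ^ 3 = (T ^ 2 + H ^ 3) * uF H T m ^ 5 := by
  unfold uT uH uF
  ring

end Fermat.Agent.S52
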