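import Fermat.Agent.S52.UnivH
import Fermat.Agent.S52.UnivF
import Fermat.Agent.S52.UnivRel

/-!
# S52/F1: the universal pencil identities, in the variables `x, y, m`; Klein's relation; functoriality
`kT_vt` is deduced from `kH_vt`, `kf_vt`, Klein's relation and `uRel` (squares agree in the domain `ℤ[x,y,m]`, the sign is fixed at `(1,0,0)`).
-/

set_option autoImplicit false

namespace Fermat.Agent.S52

variable {R : Type*} [CommRing R]

theorem klein (x y : R) : kT x y ^ 2 + kH x y ^ 3 = 1728 * kf x y ^ 5 := by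
  unfold kT kH kf; ring

theorem kf_euler (x y : R) : x * kfx x y + y * kfy x y = 12 * kf x y := by
  unfold kfx kfy kf; ring

theorem vt_fst (x y m : R) :
    (vt x y m).1 = x * (1 + m * ((x ^ 5) ^ 2 + 66 * x ^ 5 * y ^ 5 - 11 * (y ^ 5) ^ 2)) := by
  unfold vt kfy; ring

theorem vt_snd (x y m : R) :
    (vt x y m).2 = y * (1 - m * (11 * (x ^ 5) ^ 2 + 66 * x ^ 5 * y ^ 5 - (y ^ 5) ^ 2)) := by
  unfold vt kfx; ring

theorem kH_vt (x y m : R) : kH (vt x y m).1 (vt x y m).2 = uH (kH x y) (kT x y) m := by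
  rw [kH_eq5, vt_fst, vt_snd, mul_pow, mul_pow, uH5, ← kH_eq5, ← kT_eq5]

theorem kf_vt (x y m : R) : kf (vt x y m).1 (vt x y m).2 = kf x y * uF (kH x y) (kT x y) m := by
  rw [kf_eq5, vt_fst, vt_snd, mul_pow, mul_pow, kf_eq5 x y, kH_eq5 x y, kT_eq5 x y, mul_assoc (x * y),
    ← uF5]
  ring

section map
variable {S : Type*} [CommRing S] (φ : R →+* S)

theorem map_kf (x y : R) : φ (kf x y) = kf (φ x) (φ y) := by simp [kf, map_ofNat]
theorem map_kH (x y : R) : φ (kH x y) = kH (φ x) (φ y) := by simp [kH, map_ofNat]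
theorem map_kT (x y : R) : φ (kT x y) = kT (φ x) (φ y) := by simp [kT, map_ofNat]
theorem map_kfx (x y : R) : φ (kfx x y) = kfx (φ x) (φ y) := by simp [kfx, map_ofNat]
theorem map_kfy (x y : R) : φ (kfy x y) = kfy (φ x) (φ y) := by simp [kfy, map_ofNat]
theorem map_kX (x y : R) : φ (kX x y) = kX (φ x) (φ y) := by simp [kX, map_ofNat]
theorem map_kY (x y : R) : φ (kY x y) = kY (φ x) (φ y) := by simp [kY, map_ofNat]
theorem map_uH (H T m : R) : φ (uH H T m) = uH (φ H) (φ T) (φ m) := by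
  simp only [uH, map_add, map_mul, map_pow, map_neg, map_ofNat, map_one]
theorem map_uT (H T m : R) : φ (uT H T m) = uT (φ H) (φ T) (φ m) := by
  simp only [uT, map_add, map_mul, map_pow, map_neg, map_ofNat, map_one]
theorem map_uF (H T m : R) : φ (uF H T m) = uF (φ H) (φ T) (φ m) := by
  simp only [uF, map_add, map_mul, map_pow, map_neg, map_ofNat, map_one]
theorem map_vt_fst (x y m : R) : φ (vt x y m).1 = (vt (φ x) (φ y) (φ m)).1 := by
  simp [vt, map_kfy]
theorem map_vt_snd (x y m : R) : φ (vt x y m).2 = (vt (φ x) (φ y) (φ m)).2 := by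
  simp [vt, map_kfx]

end map

theorem uT_zero (H T : R) : uT H T 0 = T := by
  simp [uT]

theorem uH_zero (H T : R) : uH H T 0 = H := by
  simp [uH]

theorem uF_zero (H T : R) : uF H T 0 = 1 := by
  simp [uF]

theorem kT_vt_sq (x y m : R) :
    kT (vt x y m).1 (vt x y m).2 ^ 2 = uT (kH x y) (kT x y) m ^ 2 := by
  have h1 := klein (vt x y m).1 (vt x y m).2
  rw [kH_vt, kf_vt] at h1
  have h2 := uRel (kH x y) (kT x y) m
  have h3 := klein x y
  linear_combination h1 - h2 - uF (kH x y) (kT x y) m ^ 5 * h3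

open MvPolynomial in
theorem kT_vt_univ :
    kT (vt (X 0 : MvPolynomial (Fin 3) ℤ) (X 1) (X 2)).1 (vt (X 0 : MvPolynomial (Fin 3) ℤ) (X 1) (X 2)).2
      = uT (kH (X 0 : MvPolynomial (Fin 3) ℤ) (X 1)) (kT (X 0 : MvPolynomial (Fin 3) ℤ) (X 1)) (X 2) := by
  rcases sq_eq_sq_iff_eq_or_eq_neg.mp (kT_vt_sq (X 0 : MvPolynomial (Fin 3) ℤ) (X 1) (X 2)) with h | h
  · exact h
  · exfalso
    have h' := congrArg (MvPolynomial.eval ![(1 : ℤ), 0, 0]) h
    rw [map_neg, map_kT, map_uT, map_kH, map_kT, map_vt_fst, map_vt_snd] at h'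
    simp only [MvPolynomial.eval_X, Matrix.cons_val_zero, Matrix.cons_val_one, Matrix.cons_val] at h'
    rw [uT_zero] at h'
    norm_num [vt, kT] at h'

theorem kT_vt (x y m : R) : kT (vt x y m).1 (vt x y m).2 = uT (kH x y) (kT x y) m := by
  have h := congrArg (MvPolynomial.eval₂Hom (Int.castRingHom R) ![x, y, m]) kT_vt_univ
  rw [map_kT, map_uT, map_kH, map_kT, map_vt_fst, map_vt_snd] at h
  simpa using h

end Fermat.Agent.S52
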