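import Fermat.Agent.S52.Defs

/-!
# S52/F1: the universal pencil identities (integer coefficients; computed by exact linear algebra)
`kH (v + m cov v) = uH (kH v) (kT v) m`, `kT (v + m cov v) = uT (kH v) (kT v) m`, `kf (v + m cov v) = kf v * uF (kH v) (kT v) m`.
-/

set_option autoImplicit false
set_option maxRecDepth 100000

namespace Fermat.Agent.S52

variable {R : Type*} [CommRing R]

def uH (H T m : R) : R :=
    (1 * H)
    + ((-20) * T) * m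
    + ((-190) * H ^ 2) * m ^ 2
    + (1140 * H * T) * m ^ 3
    + ((-5700) * T ^ 2 + (-855) * H ^ 3) * m ^ 4
    + ((-15504) * H ^ 2 * T) * m ^ 5
    + ((-63840) * H * T ^ 2 + (-102600) * H ^ 4) * m ^ 6
    + (182400 * T ^ 3 + 259920 * H ^ 3 * T) * m ^ 7
    + ((-1126320) * H ^ 2 * T ^ 2 + (-1000350) * H ^ 5) * m ^ 8
    + (7904000 * H * T ^ 3 + 7736040 * H ^ 4 * T) * m ^ 9
    + ((-15808000) * T ^ 4 + (-5619744) * H ^ 3 * T ^ 2 + 10003500 * H ^ 6) * m ^ 10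
    + ((-54853760) * H ^ 2 * T ^ 3 + (-54685800) * H ^ 5 * T) * m ^ 11
    + (37939200 * H * T ^ 4 + (-7202520) * H ^ 4 * T ^ 2 + (-45015750) * H ^ 7) * m ^ 12
    + ((-58368000) * T ^ 5 + (-23201280) * H ^ 3 * T ^ 3 + 35089200 * H ^ 6 * T) * m ^ 13
    + ((-287462400) * H ^ 2 * T ^ 4 + (-495188640) * H ^ 5 * T ^ 2 + (-207765000) * H ^ 8) * m ^ 14
    + (466944000 * H * T ^ 5 + 882458496 * H ^ 4 * T ^ 3 + 415530000 * H ^ 7 * T) * m ^ 15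
    + ((-583680000) * T ^ 6 + (-1220474880) * H ^ 3 * T ^ 4 + (-714711600) * H ^ 6 * T ^ 2 + (-77911875) * H ^ 9) * m ^ 16
    + ((-361881600) * H ^ 2 * T ^ 5 + (-715080960) * H ^ 5 * T ^ 3 + (-353200500) * H ^ 8 * T) * m ^ 17
    + ((-622592000) * H * T ^ 6 + (-2026391040) * H ^ 4 * T ^ 4 + (-2182917600) * H ^ 7 * T ^ 2 + (-779118750) * H ^ 10) * m ^ 18
    + (655360000 * T ^ 7 + 2005401600 * H ^ 3 * T ^ 5 + 2044414080 * H ^ 6 * T ^ 3 + 694372500 * H ^ 9 * T) * m ^ 19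
    + (180224000 * H ^ 2 * T ^ 6 + 544997376 * H ^ 5 * T ^ 4 + 549301500 * H ^ 8 * T ^ 2 + 184528125 * H ^ 11) * m ^ 20

def uT (H T m : R) : R :=
    (1 * T)
    + (30 * H ^ 2) * m
    + ((-435) * H * T) * m ^ 2
    + (2900 * T ^ 2 + (-1160) * H ^ 3) * m ^ 3
    + (27405 * H ^ 2 * T) * m ^ 4
    + ((-46980) * H * T ^ 2 + 95526 * H ^ 4) * m ^ 5
    + (156600 * T ^ 3 + (-437175) * H ^ 3 * T) * m ^ 6
    + (3915000 * H ^ 2 * T ^ 2 + 1879200 * H ^ 5) * m ^ 7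
    + ((-14407200) * H * T ^ 3 + (-8554275) * H ^ 4 * T) * m ^ 8
    + (32016000 * T ^ 4 + 42021000 * H ^ 3 * T ^ 2 + 24312150 * H ^ 6) * m ^ 9
    + ((-216588240) * H ^ 2 * T ^ 3 + (-246633255) * H ^ 5 * T) * m ^ 10
    + (1459929600 * H * T ^ 4 + 1352475900 * H ^ 4 * T ^ 2 + (-162081000) * H ^ 7) * m ^ 11
    + ((-2433216000) * T ^ 5 + 1612005600 * H ^ 3 * T ^ 3 + 4131714825 * H ^ 6 * T) * m ^ 12
    + ((-12044419200) * H ^ 2 * T ^ 4 + (-5235216300) * H ^ 5 * T ^ 2 + 6928962750 * H ^ 8) * m ^ 13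
    + ((-43045111800) * H ^ 4 * T ^ 3 + (-43190534475) * H ^ 7 * T) * m ^ 14
    + (79420170240 * H ^ 3 * T ^ 4 + 79575287760 * H ^ 6 * T ^ 2) * m ^ 15
    + ((-297825638400) * H ^ 2 * T ^ 5 + (-474659611200) * H ^ 5 * T ^ 3 + (-176688550125) * H ^ 8 * T) * m ^ 16
    + (700766208000 * H * T ^ 6 + 935084908800 * H ^ 4 * T ^ 4 + (-77604382800) * H ^ 7 * T ^ 2 + (-311803323750) * H ^ 10) * m ^ 17
    + ((-778629120000) * T ^ 7 + 303665356800 * H ^ 3 * T ^ 5 + 2776512362400 * H ^ 6 * T ^ 3 + 1694131392375 * H ^ 9 * T) * m ^ 18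
    + ((-4290656256000) * H ^ 2 * T ^ 6 + (-8100765158400) * H ^ 5 * T ^ 4 + (-3481840250100) * H ^ 8 * T ^ 2 + 328214025000 * H ^ 11) * m ^ 19
    + (3442360320000 * H * T ^ 7 + 3892110842880 * H ^ 4 * T ^ 5 + (-2424887357760) * H ^ 7 * T ^ 3 + (-2874607835625) * H ^ 10 * T) * m ^ 20
    + ((-3278438400000) * T ^ 8 + (-5125838438400) * H ^ 3 * T ^ 6 + (-2709129888000) * H ^ 6 * T ^ 4 + (-3077188825500) * H ^ 9 * T ^ 2 + (-2215444668750) * H ^ 12) * m ^ 21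
    + ((-4573421568000) * H ^ 2 * T ^ 7 + (-7701051801600) * H ^ 5 * T ^ 5 + (-1724509423800) * H ^ 8 * T ^ 3 + 1403114956875 * H ^ 11 * T) * m ^ 22
    + ((-6157762560000) * H * T ^ 8 + (-30337884979200) * H ^ 4 * T ^ 6 + (-49888700928000) * H ^ 7 * T ^ 4 + (-33414470973000) * H ^ 10 * T ^ 2 + (-7705894500000) * H ^ 13) * m ^ 23
    + (5131468800000 * T ^ 9 + 22779445248000 * H ^ 3 * T ^ 7 + 35246094796800 * H ^ 6 * T ^ 5 + 22687218914400 * H ^ 9 * T ^ 3 + 5089101159375 * H ^ 12 * T) * m ^ 24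
    + ((-18216714240000) * H ^ 2 * T ^ 8 + (-71274600677376) * H ^ 5 * T ^ 6 + (-105528606261120) * H ^ 8 * T ^ 4 + (-70097953635000) * H ^ 11 * T ^ 2 + (-17627233668750) * H ^ 14) * m ^ 25
    + (41051750400000 * H * T ^ 9 + 163803539865600 * H ^ 4 * T ^ 7 + 245438120632320 * H ^ 7 * T ^ 5 + 163672057566000 * H ^ 10 * T ^ 3 + 40985726371875 * H ^ 13 * T) * m ^ 26
    + ((-30408704000000) * T ^ 10 + (-111934439424000) * H ^ 3 * T ^ 8 + (-143803576074240) * H ^ 6 * T ^ 6 + (-63806176396800) * H ^ 9 * T ^ 4 + 8104032382500 * H ^ 12 * T ^ 2 + 9632368125000 * H ^ 15) * m ^ 27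
    + ((-21438136320000) * H ^ 2 * T ^ 9 + (-85731449241600) * H ^ 5 * T ^ 7 + (-128580522647040) * H ^ 8 * T ^ 5 + (-85719228804000) * H ^ 11 * T ^ 3 + (-21432019078125) * H ^ 14 * T) * m ^ 28
    + ((-5033164800000) * H * T ^ 10 + (-31344427008000) * H ^ 4 * T ^ 8 + (-75042714746880) * H ^ 7 * T ^ 6 + (-87394892457600) * H ^ 10 * T ^ 4 + (-49873523512500) * H ^ 13 * T ^ 2 + (-11210083593750) * H ^ 16) * m ^ 29
    + (3355443200000 * T ^ 11 + 17532190720000 * H ^ 3 * T ^ 9 + 36574189977600 * H ^ 6 * T ^ 7 + 38083944628224 * H ^ 9 * T ^ 5 + 19796866155000 * H ^ 12 * T ^ 3 + 4110363984375 * H ^ 15 * T) * m ^ 30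

def uF (H T m : R) : R :=
    (1)
    + (66 * H) * m ^ 2
    + ((-440) * T) * m ^ 3
    + ((-1485) * H ^ 2) * m ^ 4
    + (3168 * H * T) * m ^ 5
    + ((-10560) * T ^ 2 + (-5940) * H ^ 3) * m ^ 6
    + ((-4752) * H ^ 2 * T) * m ^ 7
    + ((-63360) * H * T ^ 2 + (-66825) * H ^ 4) * m ^ 8
    + (140800 * T ^ 3 + 142560 * H ^ 3 * T) * m ^ 9
    + (133056 * H ^ 2 * T ^ 2 + 133650 * H ^ 5) * m ^ 10
    + ((-61440) * H * T ^ 3 + (-61560) * H ^ 4 * T) * m ^ 11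
    + (102400 * T ^ 4 + 193536 * H ^ 3 * T ^ 2 + 91125 * H ^ 6) * m ^ 12

/-- `kH` in the variables `u = x^5`, `w = y^5` -/
def kH5 (u w : R) : R := -(u ^ 4 + w ^ 4) + 228 * (u ^ 3 * w - u * w ^ 3) - 494 * u ^ 2 * w ^ 2

def kT5 (u w : R) : R :=
  (u ^ 6 + w ^ 6) + 522 * (u ^ 5 * w - u * w ^ 5) - 10005 * (u ^ 4 * w ^ 2 + u ^ 2 * w ^ 4)

def kG5 (u w : R) : R := u ^ 2 + 11 * u * w - w ^ 2

theorem kH_eq5 (x y : R) : kH x y = kH5 (x ^ 5) (y ^ 5) := by unfold kH kH5; ring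
theorem kT_eq5 (x y : R) : kT x y = kT5 (x ^ 5) (y ^ 5) := by unfold kT kT5; ring
theorem kf_eq5 (x y : R) : kf x y = x * y * kG5 (x ^ 5) (y ^ 5) := by unfold kf kG5; ring

end Fermat.Agent.S52
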