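import Fermat.Agent.S52.UnivDefs

set_option autoImplicit false
set_option maxRecDepth 100000

namespace Fermat.Agent.S52

variable {R : Type*} [CommRing R]

set_option maxHeartbeats 0 in
theorem uH5 (u w m : R) :
    kH5 (u * (1 + m * (u ^ 2 + 66 * u * w - 11 * w ^ 2)) ^ 5)
      (w * (1 - m * (11 * u ^ 2 + 66 * u * w - w ^ 2)) ^ 5) = uH (kH5 u w) (kT5 u w) m := by
  unfold uH kH5 kT5
  ring

end Fermat.Agent.S52
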